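import Mathlib.NumberTheory.ModularForms.QExpansion
import Mathlib.LinearAlgebra.Dual.Lemmas
import Fermat.Prelude.Def_FLTPrelim_Modularity
import Fermat.Prelude.Def_CuspForm_HeckeAlgebra
import Fermat.Prelude.Def_CuspForm_IntegralStructure
import Fermat.Prelude.Thm_CongruenceSubgroup_one_mem_strictPeriods_Gamma0
import Fermat.Prelude.Thm_ModularFormClass_qCoeff_heckeT
import Fermat.Prelude.Thm_ModularFormClass_qCoeff_heckeU
import Fermat.Prelude.Thm_UpperHalfPlane_eq_of_forall_qCoeff_eq
import Fermat.Prelude.Thm_ModularForm_sturm_bound_Gamma0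

/-!
# Duality between weight-2 cusp forms and their Hecke algebra

`(t, f) ↦ a₁(t f)` on `heckeAlgebra N 2 ∅ × S₂(Γ₀(N))`.
-/

set_option autoImplicit false

noncomputable section

open ModularFormClass UpperHalfPlane

namespace FLTA.Periods

variable {N : ℕ}

/-- Weight 2 cusp forms on `Γ₀(N)`. -/
abbrev CF2 (N : ℕ) : Type := CuspForm (CongruenceSubgroup.Gamma0 N) 2

/-- The full weight 2 Hecke algebra. -/
abbrev fullHecke (N : ℕ) [NeZero N] : Subalgebra ℤ (Module.End ℂ (CF2 N)) :=
  CuspForm.heckeAlgebra N 2 ∅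

/-- The `n`th coefficient as a linear functional. -/
def coeffLin (N n : ℕ) : CF2 N →ₗ[ℂ] ℂ where
  toFun f := qCoeff f n
  map_add' f g := by
    simp only [qCoeff, CuspForm.coe_add]
    rw [ModularForm.qExpansion_add one_pos
      (CongruenceSubgroup.one_mem_strictPeriods_Gamma0 N) f g, map_add]
  map_smul' c f := by
    simp only [qCoeff, CuspForm.IsGLPos.coe_smul]
    rw [ModularForm.qExpansion_smul one_pos
      (CongruenceSubgroup.one_mem_strictPeriods_Gamma0 N) c f]
    simp

@[simp] theorem coeffLin_apply (n : ℕ) (f : CF2 N) : coeffLin N n f = qCoeff f n := rfl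

theorem qCoeff_zero_index (f : CF2 N) : qCoeff f 0 = 0 := by
  show (qExpansion 1 f).coeff 0 = 0
  exact CuspFormClass.qExpansion_coeff_zero f one_pos
    (CongruenceSubgroup.one_mem_strictPeriods_Gamma0 N)

theorem eq_of_qCoeff_eq [NeZero N] {f g : CF2 N}
    (h : ∀ n, 0 < n → qCoeff f n = qCoeff g n) : f = g := by
  apply DFunLike.coe_injective
  refine UpperHalfPlane.eq_of_forall_qCoeff_eq ?_ (CuspFormClass.holo f) ?_ ?_
    (CuspFormClass.holo g) ?_ ?_
  · exact_mod_cast SlashInvariantFormClass.periodic_comp_ofComplex f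
      (CongruenceSubgroup.one_mem_strictPeriods_Gamma0 N)
  · exact ModularFormClass.bdd_at_infty f
  · exact_mod_cast SlashInvariantFormClass.periodic_comp_ofComplex g
      (CongruenceSubgroup.one_mem_strictPeriods_Gamma0 N)
  · exact ModularFormClass.bdd_at_infty g
  · intro n
    rcases Nat.eq_zero_or_pos n with rfl | hn
    · rw [qCoeff_zero_index, qCoeff_zero_index]
    · exact h n hn

theorem qCoeff_heckeTLin [NeZero N] {p : ℕ} (hp : p.Prime) (hpN : ¬ p ∣ N) (f : CF2 N) (n : ℕ) :
    qCoeff (CuspForm.heckeTLin 2 hp hpN f) n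
      = qCoeff f (n * p) + if p ∣ n then (p : ℂ) * qCoeff f (n / p) else 0 := by
  rw [CuspForm.coe_heckeTLin_apply, ModularFormClass.qCoeff_heckeT f
    (CongruenceSubgroup.one_mem_strictPeriods_Gamma0 N) hp.ne_zero, ModularForm.coeffHeckeT_apply]
  norm_num

theorem qCoeff_heckeULin [NeZero N] {p : ℕ} (hp : p.Prime) (hpN : p ∣ N) (f : CF2 N) (n : ℕ) :
    qCoeff (CuspForm.heckeULin 2 hpN f) n = qCoeff f (n * p) := by
  rw [CuspForm.coe_heckeULin_apply, ModularFormClass.qCoeff_heckeU f
    (CongruenceSubgroup.one_mem_strictPeriods_Gamma0 N) hp.ne_zero, ModularForm.coeffHeckeU_apply]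

/-- Every coefficient is `a₁` composed with an element of the Hecke algebra. -/
theorem exists_hecke_qCoeff (N : ℕ) [NeZero N] {n : ℕ} (hn : 0 < n) :
    ∃ t ∈ fullHecke N, ∀ f : CF2 N, qCoeff (t f) 1 = qCoeff f n := by
  induction n using Nat.strong_induction_on with
  | _ n ih =>
    rcases Nat.lt_or_ge n 2 with h2 | h2
    · obtain rfl : n = 1 := by omega
      exact ⟨1, one_mem _, fun f => rfl⟩
    · obtain ⟨p, hp, m, rfl⟩ := Nat.exists_prime_and_dvd (by omega : n ≠ 1)
      have hm : 0 < m := Nat.pos_of_ne_zero fun h => by simp [h] at hn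
      have hmlt : m < p * m := by nlinarith [hp.two_le]
      obtain ⟨t, ht, htf⟩ := ih m hmlt hm
      by_cases hpN : p ∣ N
      · refine ⟨t * CuspForm.heckeULin 2 hpN,
          mul_mem ht (CuspForm.heckeULin_mem_heckeAlgebra hp hpN (Set.notMem_empty _)), fun f => ?_⟩
        rw [Module.End.mul_apply, htf, qCoeff_heckeULin hp, mul_comm]
      · have hT : CuspForm.heckeTLin 2 hp hpN ∈ fullHecke N :=
          CuspForm.heckeTLin_mem_heckeAlgebra hp hpN (Set.notMem_empty _)
        by_cases hpm : p ∣ m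
        · have hdiv : 0 < m / p := Nat.div_pos (Nat.le_of_dvd hm hpm) hp.pos
          obtain ⟨u, hu, huf⟩ := ih (m / p) ((Nat.div_le_self m p).trans_lt hmlt) hdiv
          refine ⟨t * CuspForm.heckeTLin 2 hp hpN - (p : ℤ) • u,
            sub_mem (mul_mem ht hT) (Subalgebra.smul_mem _ hu _), fun f => ?_⟩
          rw [← coeffLin_apply, LinearMap.sub_apply, map_sub, LinearMap.smul_apply, map_zsmul,
            coeffLin_apply, coeffLin_apply, Module.End.mul_apply, htf, huf, qCoeff_heckeTLin,
            if_pos hpm, mul_comm m p]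
          simp
        · refine ⟨t * CuspForm.heckeTLin 2 hp hpN, mul_mem ht hT, fun f => ?_⟩
          rw [Module.End.mul_apply, htf, qCoeff_heckeTLin, if_neg hpm, add_zero, mul_comm]

/-- The Hecke element `T_n` characterised by `a₁(T_n f) = a_n(f)`. -/
def heckeOp (N : ℕ) [NeZero N] (n : ℕ) : fullHecke N :=
  if h : 0 < n then ⟨_, (exists_hecke_qCoeff N h).choose_spec.1⟩ else 0

theorem qCoeff_one_heckeOp (N : ℕ) [NeZero N] (n : ℕ) (f : CF2 N) :
    qCoeff ((heckeOp N n : Module.End ℂ (CF2 N)) f) 1 = qCoeff f n := by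
  unfold heckeOp
  split_ifs with h
  · exact (exists_hecke_qCoeff N h).choose_spec.2 f
  · obtain rfl : n = 0 := by omega
    rw [qCoeff_zero_index]
    exact map_zero (coeffLin N 1) ▸ rfl

/-- The complex span of the Hecke algebra. -/
def heckeSpan (N : ℕ) [NeZero N] : Submodule ℂ (Module.End ℂ (CF2 N)) :=
  Submodule.span ℂ (fullHecke N : Set (Module.End ℂ (CF2 N)))

theorem commute_heckeSpan [NeZero N] {t : Module.End ℂ (CF2 N)} (ht : t ∈ heckeSpan N)
    (u : fullHecke N) : Commute t u := by
  induction ht using Submodule.span_induction with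
  | mem x hx => exact congrArg Subtype.val (mul_comm (⟨x, hx⟩ : fullHecke N) u)
  | zero => exact Commute.zero_left _
  | add x y _ _ hx hy => exact hx.add_left hy
  | smul c x _ hx => exact hx.smul_left c

theorem eq_zero_of_qCoeff_one [NeZero N] {t : Module.End ℂ (CF2 N)} (ht : t ∈ heckeSpan N)
    (h : ∀ f, qCoeff (t f) 1 = 0) : t = 0 := by
  refine LinearMap.ext fun f => eq_of_qCoeff_eq fun n _ => ?_
  rw [← qCoeff_one_heckeOp N n (t f)]
  have hc := LinearMap.congr_fun (commute_heckeSpan ht (heckeOp N n)).eq f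
  simp only [Module.End.mul_apply] at hc
  rw [← hc, h, LinearMap.zero_apply]
  exact (map_zero (coeffLin N n)).symm

/-- `f ↦ (t ↦ a₁(t f))`. -/
def heckePairing (N : ℕ) [NeZero N] : CF2 N →ₗ[ℂ] Module.Dual ℂ (heckeSpan N) :=
  LinearMap.mk₂ ℂ (fun f (t : heckeSpan N) => coeffLin N 1 ((t : Module.End ℂ (CF2 N)) f))
    (fun f g t => by rw [map_add, map_add])
    (fun c f t => by rw [map_smul, map_smul])
    (fun f t u => by rw [Submodule.coe_add, LinearMap.add_apply, map_add])
    (fun c f t => by rw [Submodule.coe_smul, LinearMap.smul_apply, map_smul])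

@[simp] theorem heckePairing_apply [NeZero N] (f : CF2 N) (t : heckeSpan N) :
    heckePairing N f t = qCoeff ((t : Module.End ℂ (CF2 N)) f) 1 := rfl

theorem heckePairing_injective (N : ℕ) [NeZero N] : Function.Injective (heckePairing N) := by
  rw [injective_iff_map_eq_zero]
  intro f hf
  refine eq_of_qCoeff_eq fun n _ => ?_
  rw [← qCoeff_one_heckeOp N n f]
  have h := LinearMap.congr_fun hf ⟨_, Submodule.subset_span (heckeOp N n).2⟩
  rw [heckePairing_apply, LinearMap.zero_apply] at h
  rw [h]
  exact (map_zero (coeffLin N n)).symm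

theorem finiteDimensional_cf2 (N : ℕ) [NeZero N] : FiniteDimensional ℂ (CF2 N) := by
  let B := ((2 : ℤ) * (CongruenceSubgroup.Gamma0 N).index).toNat / 12
  refine FiniteDimensional.of_injective
    (LinearMap.pi fun i : Fin (B + 1) => coeffLin N i) ?_
  rw [injective_iff_map_eq_zero]
  intro f hf
  let g : ModularForm (CongruenceSubgroup.Gamma0 N) 2 :=
    { toFun := f
      slash_action_eq' := fun γ hγ => SlashInvariantFormClass.slash_action_eq f γ hγ
      holo' := CuspFormClass.holo f
      bdd_at_cusps' := fun hc γ hγ => (CuspFormClass.zero_at_cusps f hc γ hγ).boundedAtFilter }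
  have hg : g = 0 := ModularForm.sturm_bound_Gamma0 N g fun n hn =>
    congrFun hf ⟨n, Nat.lt_succ_of_le hn⟩
  exact DFunLike.coe_injective (show (f : ℍ → ℂ) = ⇑(0 : CF2 N) from
    (congrArg DFunLike.coe hg : ((g : ModularForm _ _) : ℍ → ℂ) = _))

theorem heckePairing_bijective (N : ℕ) [NeZero N] : Function.Bijective (heckePairing N) := by
  have := finiteDimensional_cf2 N
  let Φ : heckeSpan N →ₗ[ℂ] Module.Dual ℂ (CF2 N) := (heckePairing N).flip
  have hΦ : Function.Injective Φ := by
    rw [injective_iff_map_eq_zero]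
    intro t ht
    exact Subtype.ext (eq_zero_of_qCoeff_one t.2 fun f => LinearMap.congr_fun ht f)
  have h1 := LinearMap.finrank_le_finrank_of_injective hΦ
  have h2 := LinearMap.finrank_le_finrank_of_injective (heckePairing_injective N)
  rw [Subspace.dual_finrank_eq] at h1 h2
  exact ⟨heckePairing_injective N, (LinearMap.injective_iff_surjective_of_finrank_eq_finrank
    (by rw [Subspace.dual_finrank_eq]; omega)).mp (heckePairing_injective N)⟩

/-- Perfect pairing: cusp forms are the dual of the complexified Hecke algebra. -/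
def heckeDualEquiv (N : ℕ) [NeZero N] : CF2 N ≃ₗ[ℂ] Module.Dual ℂ (heckeSpan N) :=
  LinearEquiv.ofBijective (heckePairing N) (heckePairing_bijective N)

end FLTA.Periods
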