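import Fermat.Agent.Periods.Range
import Fermat.Agent.Dim.Genus

/-!
# Injectivity of the period pairing map and the Eichler–Shimura isomorphism
-/

set_option autoImplicit false

noncomputable section

open CongruenceSubgroup ModularCurve ModularCurve.Period
open scoped MatrixGroups

namespace FLTA.Periods

variable (N : ℕ) [NeZero N]

/-- `periodHomPair` is injective. -/
theorem periodHomPair_injective : Function.Injective (periodHomPair N) :=
  periodHomPair_injective' N

/-- The range of `periodHomPair` is exactly the space of parabolic homomorphisms. -/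
theorem periodHomPair_range :
    LinearMap.range (periodHomPair N) = parabolicHoms ℂ (Gamma0 N) ℂ :=
  periodHomPair_range_of_finrank N (FLTA.Dim.finrank_cuspForm_two_Gamma0 N)

/-- The Eichler–Shimura isomorphism in weight two. -/
def periodPairEquiv :
    (CuspForm (Gamma0 N) 2 × CuspForm (Gamma0 N) 2) ≃ₗ[ℂ] parabolicHoms ℂ (Gamma0 N) ℂ :=
  (LinearEquiv.ofInjective (periodHomPair N) (periodHomPair_injective N)).trans
    (LinearEquiv.ofEq _ _ (periodHomPair_range N))

@[simp] theorem coe_periodPairEquiv (x : CuspForm (Gamma0 N) 2 × CuspForm (Gamma0 N) 2) :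
    (periodPairEquiv N x : Additive (Gamma0 N) →+ ℂ) = periodHomPair N x :=
  rfl

end FLTA.Periods
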