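/-
Abstract Hecke (double coset) operators on homomorphisms of a subgroup.

Given an injective hom `e : Γ →* G` and finitely many representatives `rep : ι → G` of distinct
right cosets of `e Γ` which are permuted by right multiplication with elements of `e Γ`
(`rep x * e γ = e (cocyc γ x) * rep (perm γ x)`), the transfer of `φ : Γ → A` (A abelian) is
`γ ↦ ∑ x, φ (cocyc γ x)`.
-/
import Mathlib

set_option autoImplicit false

noncomputable section

namespace FLTA.Periods

/-- A finite system of representatives of the cosets in a double coset, with its cocycle. -/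
structure HeckeReps {Γ G : Type*} [Group Γ] [Group G] (e : Γ →* G) (ι : Type*) where
  rep : ι → G
  perm : Γ → ι → ι
  cocyc : Γ → ι → Γ
  rep_mul : ∀ γ x, rep x * e γ = e (cocyc γ x) * rep (perm γ x)
  inj : Function.Injective e
  unique : ∀ x y δ, e δ * rep x = rep y → x = y

namespace HeckeReps

variable {Γ G : Type*} [Group Γ] [Group G] {e : Γ →* G} {ι : Type*}

/-- Constructor from an existence statement. -/
def ofExists (rep : ι → G) (inj : Function.Injective e)
    (unique : ∀ x y δ, e δ * rep x = rep y → x = y)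
    (h : ∀ γ x, ∃ y δ, rep x * e γ = e δ * rep y) : HeckeReps e ι where
  rep := rep
  perm γ x := (h γ x).choose
  cocyc γ x := (h γ x).choose_spec.choose
  rep_mul γ x := (h γ x).choose_spec.choose_spec
  inj := inj
  unique := unique

variable (R : HeckeReps e ι)

theorem eq_of_rep_eq {γ δ : Γ} {x y : ι} (h : R.rep x * e γ = e δ * R.rep y) :
    R.perm γ x = y ∧ R.cocyc γ x = δ := by
  have h' := R.rep_mul γ x
  rw [h] at h'
  have hxy : e ((R.cocyc γ x)⁻¹ * δ) * R.rep y = R.rep (R.perm γ x) := by
    rw [map_mul, mul_assoc, h', map_inv, inv_mul_cancel_left]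
  have hy : y = R.perm γ x := R.unique _ _ _ hxy
  refine ⟨hy.symm, R.inj ?_⟩
  rw [← hy] at h'
  exact (mul_right_cancel h').symm

theorem perm_mul (γ γ' : Γ) (x : ι) : R.perm (γ * γ') x = R.perm γ' (R.perm γ x) := by
  refine (R.eq_of_rep_eq (δ := R.cocyc γ x * R.cocyc γ' (R.perm γ x)) ?_).1
  rw [map_mul, map_mul, ← mul_assoc, R.rep_mul, mul_assoc, R.rep_mul, mul_assoc]

theorem cocyc_mul (γ γ' : Γ) (x : ι) :
    R.cocyc (γ * γ') x = R.cocyc γ x * R.cocyc γ' (R.perm γ x) := by
  refine (R.eq_of_rep_eq (y := R.perm γ' (R.perm γ x)) ?_).2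
  rw [map_mul, map_mul, ← mul_assoc, R.rep_mul, mul_assoc, R.rep_mul, mul_assoc]

@[simp] theorem perm_one (x : ι) : R.perm 1 x = x :=
  (R.eq_of_rep_eq (δ := 1) (by simp)).1

@[simp] theorem cocyc_one (x : ι) : R.cocyc 1 x = 1 :=
  (R.eq_of_rep_eq (y := x) (by simp)).2

/-- `perm γ` as an equivalence. -/
def permEquiv (γ : Γ) : ι ≃ ι where
  toFun := R.perm γ
  invFun := R.perm γ⁻¹
  left_inv x := by rw [← R.perm_mul, mul_inv_cancel, R.perm_one]
  right_inv x := by rw [← R.perm_mul, inv_mul_cancel, R.perm_one]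

theorem perm_injective (γ : Γ) : Function.Injective (R.perm γ) := (R.permEquiv γ).injective

theorem perm_pow (γ : Γ) (m : ℕ) (x : ι) : R.perm (γ ^ m) x = (R.perm γ)^[m] x := by
  induction m with
  | zero => simp
  | succ m ih => rw [pow_succ, R.perm_mul, ih, Function.iterate_succ_apply']

variable {A : Type*} [AddCommGroup A]

theorem map_cocyc_pow (φ : Additive Γ →+ A) (γ : Γ) (m : ℕ) (x : ι) :
    φ (Additive.ofMul (R.cocyc (γ ^ m) x)) =
      ∑ i ∈ Finset.range m, φ (Additive.ofMul (R.cocyc γ ((R.perm γ)^[i] x))) := by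
  induction m with
  | zero => simp
  | succ m ih =>
    rw [pow_succ, R.cocyc_mul, ofMul_mul, map_add, ih, Finset.sum_range_succ, R.perm_pow]

variable [Fintype ι]

/-- The Hecke transfer of a homomorphism. -/
def transferHom (φ : Additive Γ →+ A) : Additive Γ →+ A :=
  AddMonoidHom.mk' (fun γ => ∑ x, φ (Additive.ofMul (R.cocyc (Additive.toMul γ) x))) fun γ γ' => by
    simp only [toMul_add, R.cocyc_mul, ofMul_mul, map_add, Finset.sum_add_distrib]
    congr 1
    exact Equiv.sum_comp (R.permEquiv (Additive.toMul γ))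
      (fun x => φ (Additive.ofMul (R.cocyc (Additive.toMul γ') x)))

theorem transferHom_apply (φ : Additive Γ →+ A) (γ : Γ) :
    R.transferHom φ (Additive.ofMul γ) = ∑ x, φ (Additive.ofMul (R.cocyc γ x)) := rfl

/-- Naturality in the coefficients. -/
theorem transferHom_comp {B : Type*} [AddCommGroup B] (f : A →+ B) (φ : Additive Γ →+ A) :
    R.transferHom (f.comp φ) = f.comp (R.transferHom φ) := by
  refine AddMonoidHom.ext fun γ => ?_
  exact (map_sum f _ _).symm

/-- The transfer as a linear map. -/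
def transfer (𝕜 : Type*) [Semiring 𝕜] [Module 𝕜 A] :
    (Additive Γ →+ A) →ₗ[𝕜] (Additive Γ →+ A) where
  toFun := R.transferHom
  map_add' φ ψ := by
    refine AddMonoidHom.ext fun γ => ?_
    exact Finset.sum_add_distrib
  map_smul' c φ := by
    refine AddMonoidHom.ext fun γ => ?_
    exact Finset.smul_sum.symm

@[simp] theorem transfer_apply (𝕜 : Type*) [Semiring 𝕜] [Module 𝕜 A] (φ : Additive Γ →+ A) :
    R.transfer 𝕜 φ = R.transferHom φ := rfl

/-- Independence of the representatives: change each by `Γ` on the left, and reindex. -/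
theorem transferHom_congr {ι' : Type*} [Fintype ι'] (R' : HeckeReps e ι') (σ : ι' ≃ ι)
    (d : ι' → Γ) (h : ∀ x, R'.rep x = e (d x) * R.rep (σ x)) (φ : Additive Γ →+ A) :
    R'.transferHom φ = R.transferHom φ := by
  refine AddMonoidHom.ext fun γ => ?_
  obtain ⟨γ, rfl⟩ := Additive.ofMul.surjective γ
  have key : ∀ x, R'.cocyc γ x = d x * R.cocyc γ (σ x) * (d (R'.perm γ x))⁻¹ ∧
      R.perm γ (σ x) = σ (R'.perm γ x) := by
    intro x
    have h1 : R.rep (σ x) * e γ
        = e ((d x)⁻¹ * R'.cocyc γ x * d (R'.perm γ x)) * R.rep (σ (R'.perm γ x)) := by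
      have h2 := R'.rep_mul γ x
      rw [h, h, mul_assoc] at h2
      simp only [map_mul, map_inv, mul_assoc]
      rw [← h2, inv_mul_cancel_left]
    obtain ⟨hp, hc⟩ := R.eq_of_rep_eq h1
    exact ⟨by rw [hc]; group, hp⟩
  simp only [transferHom_apply]
  rw [← Equiv.sum_comp σ (fun x => φ (Additive.ofMul (R.cocyc γ x)))]
  simp_rw [fun x => (key x).1, ofMul_mul, map_add, ofMul_inv, map_neg, Finset.sum_add_distrib,
    Finset.sum_neg_distrib]
  have hperm : ∑ x, φ (Additive.ofMul (d (R'.perm γ x))) = ∑ x, φ (Additive.ofMul (d x)) :=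
    Equiv.sum_comp (R'.permEquiv γ) (fun x => φ (Additive.ofMul (d x)))
  rw [hperm]
  abel

/-- Transport of a system of representatives by an automorphism of the pair `Γ → G`. -/
def map (J : Γ ≃* Γ) (c : G ≃* G) (h : ∀ γ, c (e γ) = e (J γ)) : HeckeReps e ι where
  rep x := c (R.rep x)
  perm γ := R.perm (J.symm γ)
  cocyc γ x := J (R.cocyc (J.symm γ) x)
  rep_mul γ x := by
    have h1 : e γ = c (e (J.symm γ)) := by rw [h, J.apply_symm_apply]
    rw [h1, ← map_mul, R.rep_mul, map_mul, h]
  inj := R.inj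
  unique x y δ hδ := by
    refine R.unique x y (J.symm δ) (c.injective ?_)
    rw [map_mul, h, J.apply_symm_apply, hδ]

theorem transferHom_map (J : Γ ≃* Γ) (c : G ≃* G) (h : ∀ γ, c (e γ) = e (J γ))
    (φ : Additive Γ →+ A) :
    (R.map J c h).transferHom φ =
      (R.transferHom (φ.comp J.toMonoidHom.toAdditive)).comp J.symm.toMonoidHom.toAdditive := by
  refine AddMonoidHom.ext fun γ => ?_
  rfl

/-- A sum over a finite set with a permutation vanishes if all sums over cycles vanish. -/
theorem sum_eq_zero_of_cycles {κ M : Type*} [AddCommMonoid M] [DecidableEq κ] (σ : κ → κ)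
    (hσ : Function.Injective σ) (f : κ → M)
    (hcyc : ∀ x m, 0 < m → σ^[m] x = x → ∑ i ∈ Finset.range m, f (σ^[i] x) = 0) :
    ∀ s : Finset κ, (∀ x ∈ s, σ x ∈ s) → ∑ x ∈ s, f x = 0 := by
  intro s
  induction s using Finset.strongInduction with
  | H s ih =>
    intro hs
    rcases s.eq_empty_or_nonempty with rfl | ⟨x, hx⟩
    · simp
    have hmem : ∀ i, σ^[i] x ∈ s := by
      intro i
      induction i with
      | zero => simpa using hx
      | succ i ih => rw [Function.iterate_succ_apply']; exact hs _ ih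
    have hper : x ∈ Function.periodicPts σ := by
      obtain ⟨i, j, hij, hne⟩ : ∃ i j : ℕ, σ^[i] x = σ^[j] x ∧ i < j := by
        obtain ⟨i, -, j, -, hne, hij⟩ := Finset.exists_ne_map_eq_of_card_lt_of_maps_to
          (s := Finset.range (s.card + 1)) (t := s) (f := fun i => σ^[i] x) (by simp)
          (fun i _ => hmem i)
        rcases lt_or_gt_of_ne hne with h | h
        · exact ⟨i, j, hij, h⟩
        · exact ⟨j, i, hij.symm, h⟩
      refine Function.mk_mem_periodicPts (n := j - i) (by omega) (hσ.iterate i ?_)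
      rw [← Function.iterate_add_apply, show i + (j - i) = j by omega, hij]
    set m := Function.minimalPeriod σ x with hm
    have hm0 : 0 < m := Function.minimalPeriod_pos_of_mem_periodicPts hper
    have hfix : σ^[m] x = x := Function.iterate_minimalPeriod
    set C := (Finset.range m).image (fun i => σ^[i] x) with hC
    have hCs : C ⊆ s := by
      intro y hy
      obtain ⟨i, -, rfl⟩ := Finset.mem_image.mp hy
      exact hmem i
    have hxC : x ∈ C := Finset.mem_image.mpr ⟨0, Finset.mem_range.mpr hm0, rfl⟩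
    have hinj : Set.InjOn (fun i => σ^[i] x) (Finset.range m : Set ℕ) := by
      simpa [Finset.coe_range] using Function.iterate_injOn_Iio_minimalPeriod (f := σ) (x := x)
    have hback : ∀ y ∈ s, σ y ∈ C → y ∈ C := by
      intro y _ hy
      obtain ⟨i, hi, hiy⟩ := Finset.mem_image.mp hy
      rw [Finset.mem_range] at hi
      rcases i with _ | i
      · refine Finset.mem_image.mpr ⟨m - 1, Finset.mem_range.mpr (by omega), hσ ?_⟩
        rw [← Function.iterate_succ_apply' σ, show (m - 1).succ = m by omega, hfix]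
        exact hiy
      · exact Finset.mem_image.mpr ⟨i, Finset.mem_range.mpr (by omega),
          hσ (by rw [← Function.iterate_succ_apply' σ]; exact hiy)⟩
    rw [← Finset.sum_sdiff hCs, ih (s \ C) (Finset.sdiff_ssubset hCs ⟨x, hxC⟩) ?_, zero_add, hC,
      Finset.sum_image hinj]
    · exact hcyc x m hm0 hfix
    · intro y hy
      rw [Finset.mem_sdiff] at hy ⊢
      exact ⟨hs y hy.1, fun h => hy.2 (hback y hy.1 h)⟩

/-- The transfer kills `γ` when `φ` kills every element conjugate (in `G`) to a positive power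
of `γ`. -/
theorem transferHom_eq_zero (φ : Additive Γ →+ A) (γ : Γ)
    (h : ∀ δ : Γ, ∀ g : G, ∀ m : ℕ, 0 < m → g * e (γ ^ m) * g⁻¹ = e δ →
      φ (Additive.ofMul δ) = 0) :
    R.transferHom φ (Additive.ofMul γ) = 0 := by
  classical
  rw [transferHom_apply]
  refine sum_eq_zero_of_cycles (R.perm γ) (R.perm_injective γ) _ (fun x m hm hx => ?_)
    Finset.univ (fun _ _ => Finset.mem_univ _)
  rw [← R.map_cocyc_pow φ γ m x]
  refine h _ (R.rep x) m hm ?_
  rw [R.rep_mul, R.perm_pow, hx, mul_inv_cancel_right]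

end HeckeReps

end FLTA.Periods

end
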