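/-
Hecke operators on homomorphisms of `Γ₀(N)`: instances of the transfer of `HeckeTransfer.lean` for
the Prelude matrices `heckeMatrix p j` and `heckeDiagMatrix p`.

* `heckeHom 𝕜 N p` : the uniform operator (`U_p` if `p ∣ N`, `T_p` otherwise), `p` prime.
* natural in the coefficients, preserves parabolic homs and homs killing the elements of finite
  order, commutes with `charInvolution`.
-/
import Fermat.Agent.Periods.HeckeTransfer
import Fermat.Agent.Gamma0.Complex.Basic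
import Fermat.Prelude.Def_ModularCurve_PeriodHomPair
import Fermat.Prelude.Def_ModularForm_HeckeOperatorForms
import Fermat.Prelude.Sol.S_ModularForm_heckeT_slash_eq_self_of_mem_Gamma0

set_option autoImplicit false

noncomputable section

namespace FLTA.Periods

open CongruenceSubgroup ModularCurve.Period Matrix.SpecialLinearGroup UpperHalfPlane
open scoped MatrixGroups OnePoint

open P2MW.S_ModularForm_heckeT_slash_eq_self_of_mem_Gamma0.ModularForm.HeckeSlashInvariance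
  (heckeRep heckeRep_mul heckeMatrix_mul_of_dvd affinePerm)

variable {N : ℕ}

/-- `Γ₀(N)` inside `GL₂(ℝ)`. -/
abbrev gamma0GL (N : ℕ) : Gamma0 N →* GL (Fin 2) ℝ := (mapGL ℝ).comp (Gamma0 N).subtype

theorem gamma0GL_injective : Function.Injective (gamma0GL N) :=
  (mapGL_injective (R := ℤ) (S := ℝ)).comp Subtype.val_injective

theorem gamma0GL_apply (δ : Gamma0 N) (i j : Fin 2) :
    (gamma0GL N δ : GL (Fin 2) ℝ) i j = (((δ : SL(2, ℤ)) i j : ℤ) : ℝ) := by
  simp [gamma0GL]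

theorem dvd_of_mem_Gamma0 {g : SL(2, ℤ)} (hg : g ∈ Gamma0 N) : (N : ℤ) ∣ g 1 0 :=
  (ZMod.intCast_zmod_eq_zero_iff_dvd _ _).mp (Gamma0_mem.mp hg)

theorem mem_Gamma0_of_dvd {g : SL(2, ℤ)} (hg : (N : ℤ) ∣ g 1 0) : g ∈ Gamma0 N :=
  Gamma0_mem.mpr ((ZMod.intCast_zmod_eq_zero_iff_dvd _ _).mpr hg)

section uniq

variable {p : ℕ}

/-- Distinct `heckeMatrix p j` (`j` mod `p`) lie in distinct cosets. -/
theorem heckeMatrix_coset_inj [NeZero p] {x y : ZMod p} {δ : Gamma0 N}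
    (h : gamma0GL N δ * ModularForm.heckeMatrix p x.val = ModularForm.heckeMatrix p y.val) :
    x = y := by
  have hp : p ≠ 0 := NeZero.ne p
  have h00 := congrArg (fun g : GL (Fin 2) ℝ => g 0 0) h
  have h01 := congrArg (fun g : GL (Fin 2) ℝ => g 0 1) h
  simp [Matrix.mul_apply, Fin.sum_univ_two, hp, -ZMod.natCast_val] at h00 h01
  set a : ℤ := (δ : SL(2, ℤ)) 0 0
  set b : ℤ := (δ : SL(2, ℤ)) 0 1
  have e1 : a = 1 := by exact_mod_cast h00
  have e2 : a * (x.val : ℤ) + b * (p : ℤ) = (y.val : ℤ) := by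
    apply Int.cast_injective (α := ℝ)
    simpa only [Int.cast_add, Int.cast_mul, Int.cast_natCast] using h01
  have := congrArg (Int.cast : ℤ → ZMod p) e2
  simpa [e1] using this

/-- `heckeMatrix p j` and `heckeDiagMatrix p` lie in distinct cosets. -/
theorem heckeMatrix_ne_diag (hp : p.Prime) {x : ℕ} {δ : Gamma0 N} :
    gamma0GL N δ * ModularForm.heckeMatrix p x ≠ ModularForm.heckeDiagMatrix p := by
  intro h
  have hp0 := hp.ne_zero
  have h10 := congrArg (fun g : GL (Fin 2) ℝ => g 1 0) h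
  have h11 := congrArg (fun g : GL (Fin 2) ℝ => g 1 1) h
  simp [Matrix.mul_apply, Fin.sum_univ_two, hp0] at h10 h11
  simp [h10] at h11
  have e : ((δ : SL(2, ℤ)) 1 1 : ℤ) * (p : ℤ) = 1 := by exact_mod_cast h11
  have : (p : ℤ) ∣ 1 := Dvd.intro_left _ e
  exact hp.one_lt.ne' (Nat.dvd_one.mp (by exact_mod_cast this))

/-- `heckeDiagMatrix p` and `heckeMatrix p j` lie in distinct cosets. -/
theorem diag_ne_heckeMatrix (hp : p.Prime) {x : ℕ} {δ : Gamma0 N} :
    gamma0GL N δ * ModularForm.heckeDiagMatrix p ≠ ModularForm.heckeMatrix p x := by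
  intro h
  have hp0 := hp.ne_zero
  have h00 := congrArg (fun g : GL (Fin 2) ℝ => g 0 0) h
  simp [Matrix.mul_apply, Fin.sum_univ_two, hp0] at h00
  have e : ((δ : SL(2, ℤ)) 0 0 : ℤ) * (p : ℤ) = 1 := by exact_mod_cast h00
  have : (p : ℤ) ∣ 1 := Dvd.intro_left _ e
  exact hp.one_lt.ne' (Nat.dvd_one.mp (by exact_mod_cast this))

end uniq

/-- Representatives for `U_p` (`p ∣ N`). -/
def repsU {p : ℕ} [NeZero p] (hpN : p ∣ N) : HeckeReps (gamma0GL N) (ZMod p) :=
  HeckeReps.ofExists (fun x => ModularForm.heckeMatrix p x.val) gamma0GL_injective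
    (fun _ _ _ h => heckeMatrix_coset_inj h)
    (fun γ x => by
      have hc : (N : ℤ) ∣ (γ : SL(2, ℤ)) 1 0 := dvd_of_mem_Gamma0 γ.2
      obtain ⟨g', hg', hmul⟩ :=
        heckeMatrix_mul_of_dvd (γ : SL(2, ℤ)) ((Int.natCast_dvd_natCast.mpr hpN).trans hc) x
      exact ⟨_, ⟨g', mem_Gamma0_of_dvd (hg' ▸ dvd_mul_of_dvd_right hc _)⟩, hmul⟩)

@[simp] theorem repsU_rep {p : ℕ} [NeZero p] (hpN : p ∣ N) (x : ZMod p) :
    (repsU hpN).rep x = ModularForm.heckeMatrix p x.val := rfl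

/-- Representatives for `T_p` (`p ∤ N`). -/
def repsT {p : ℕ} [hp : Fact p.Prime] (hpN : ¬ p ∣ N) :
    HeckeReps (gamma0GL N) (OnePoint (ZMod p)) :=
  HeckeReps.ofExists (heckeRep p) gamma0GL_injective
    (fun x y δ h => by
      haveI : NeZero p := ⟨hp.out.ne_zero⟩
      induction x using OnePoint.rec with
      | infty =>
        induction y using OnePoint.rec with
        | infty => rfl
        | coe j => exact absurd h (diag_ne_heckeMatrix hp.out)
      | coe i =>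
        induction y using OnePoint.rec with
        | infty => exact absurd h (heckeMatrix_ne_diag hp.out)
        | coe j => exact congrArg _ (heckeMatrix_coset_inj h))
    (fun γ x => by
      obtain ⟨g', hg', hmul⟩ := heckeRep_mul hpN (γ : SL(2, ℤ)) (dvd_of_mem_Gamma0 γ.2) x
      exact ⟨_, ⟨g', mem_Gamma0_of_dvd hg'⟩, hmul⟩)

@[simp] theorem repsT_rep {p : ℕ} [Fact p.Prime] (hpN : ¬ p ∣ N) :
    (repsT hpN).rep = heckeRep p := rfl

section ops

variable (𝕜 : Type*) [Semiring 𝕜] {A : Type*} [AddCommGroup A] [Module 𝕜 A]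

/-- `T_p` on homomorphisms. -/
def heckeHomT {p : ℕ} (hp : p.Prime) (hpN : ¬ p ∣ N) :
    (Additive (Gamma0 N) →+ A) →ₗ[𝕜] (Additive (Gamma0 N) →+ A) :=
  haveI := Fact.mk hp
  haveI : NeZero p := ⟨hp.ne_zero⟩
  (repsT hpN).transfer 𝕜

/-- `U_p` on homomorphisms. -/
def heckeHomU {p : ℕ} [NeZero N] (hpN : p ∣ N) :
    (Additive (Gamma0 N) →+ A) →ₗ[𝕜] (Additive (Gamma0 N) →+ A) :=
  haveI : NeZero p := ⟨fun h => NeZero.ne N (by simpa [h] using hpN)⟩
  (repsU hpN).transfer 𝕜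

open Classical in
/-- The Hecke operator at `p` on homomorphisms of `Γ₀(N)`. -/
def heckeHom (N : ℕ) [NeZero N] (p : ℕ) :
    (Additive (Gamma0 N) →+ A) →ₗ[𝕜] (Additive (Gamma0 N) →+ A) :=
  if h : p ∣ N then heckeHomU 𝕜 h else if hp : p.Prime then heckeHomT 𝕜 hp h else 0

theorem heckeHom_of_dvd [NeZero N] {p : ℕ} (hpN : p ∣ N) :
    (heckeHom 𝕜 N p : (Additive (Gamma0 N) →+ A) →ₗ[𝕜] _) = heckeHomU 𝕜 hpN := dif_pos hpN

theorem heckeHom_of_not_dvd [NeZero N] {p : ℕ} (hp : p.Prime) (hpN : ¬ p ∣ N) :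
    (heckeHom 𝕜 N p : (Additive (Gamma0 N) →+ A) →ₗ[𝕜] _) = heckeHomT 𝕜 hp hpN :=
  (dif_neg hpN).trans (dif_pos hp)

/-- Whatever holds for the transfers and for `0` holds for `heckeHom`. -/
theorem heckeHom_cases [NeZero N] (p : ℕ)
    {P : ((Additive (Gamma0 N) →+ A) → (Additive (Gamma0 N) →+ A)) → Prop}
    (hU : ∀ [NeZero p] (h : p ∣ N), P fun φ => (repsU h).transferHom φ)
    (hT : ∀ [Fact p.Prime] [NeZero p] (h : ¬ p ∣ N), P fun φ => (repsT h).transferHom φ)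
    (h0 : P fun _ => 0) : P fun φ => heckeHom 𝕜 N p φ := by
  by_cases h : p ∣ N
  · haveI : NeZero p := ⟨fun h0 => NeZero.ne N (by simpa [h0] using h)⟩
    simpa [heckeHom, dif_pos h, heckeHomU] using! hU h
  · by_cases hp : p.Prime
    · haveI := Fact.mk hp
      haveI : NeZero p := ⟨hp.ne_zero⟩
      simpa [heckeHom, dif_neg h, dif_pos hp, heckeHomT] using! hT h
    · simpa [heckeHom, dif_neg h, dif_neg hp] using! h0

/-- The operator does not depend on the scalars. -/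
theorem heckeHom_eq_int [NeZero N] (p : ℕ) (φ : Additive (Gamma0 N) →+ A) :
    heckeHom 𝕜 N p φ = heckeHom ℤ N p φ := by
  unfold heckeHom
  split_ifs <;> rfl

/-- Naturality in the coefficients (in particular along `ℤ → ℂ`). -/
theorem heckeHom_comp [NeZero N] {B : Type*} [AddCommGroup B] [Module 𝕜 B] (p : ℕ) (f : A →+ B)
    (φ : Additive (Gamma0 N) →+ A) : heckeHom 𝕜 N p (f.comp φ) = f.comp (heckeHom 𝕜 N p φ) := by
  by_cases h : p ∣ N
  · haveI : NeZero p := ⟨fun h0 => NeZero.ne N (by simpa [h0] using h)⟩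
    simp only [heckeHom_of_dvd 𝕜 h]
    exact (repsU h).transferHom_comp f φ
  · by_cases hp : p.Prime
    · haveI := Fact.mk hp
      haveI : NeZero p := ⟨hp.ne_zero⟩
      simp only [heckeHom_of_not_dvd 𝕜 hp h]
      exact (repsT h).transferHom_comp f φ
    · simp [heckeHom, dif_neg h, dif_neg hp]

end ops

section preserve

variable (𝕜 : Type*) [Semiring 𝕜] {A : Type*} [AddCommGroup A] [Module 𝕜 A] [NeZero N] (p : ℕ)

theorem mul_self_eq_trace_smul_sub_one {R : Type*} [CommRing R] (M : Matrix (Fin 2) (Fin 2) R)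
    (hd : M.det = 1) : M * M = M.trace • M - 1 := by
  rw [Matrix.det_fin_two] at hd
  ext i j
  fin_cases i <;> fin_cases j <;>
    simp [Matrix.mul_apply, Fin.sum_univ_two, Matrix.trace_fin_two] <;>
    first | linear_combination (-1 : R) * hd | ring

theorem trace_pow_of_trace_sq_eq_four {R : Type*} [CommRing R] (M : Matrix (Fin 2) (Fin 2) R)
    (hd : M.det = 1) {t : R} (ht : M.trace = t + t) (ht2 : t * t = 1) :
    ∀ m, (M ^ m).trace = t ^ m + t ^ m := by
  have hM : M * M = M.trace • M - 1 := mul_self_eq_trace_smul_sub_one M hd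
  intro m
  induction m using Nat.twoStepInduction with
  | zero => simp [Matrix.trace_one]; ring
  | one => simpa using ht
  | more m h0 h1 =>
    have : M ^ (m + 2) = M.trace • M ^ (m + 1) - M ^ m := by
      rw [pow_add, pow_two, hM, mul_sub, mul_one, mul_smul_comm, ← pow_succ]
    rw [this, Matrix.trace_sub, Matrix.trace_smul, h0, h1, ht, smul_eq_mul]
    linear_combination (3 * t ^ m + 0) * ht2 + (t ^ m) * ht2 - (2 * t ^ m) * ht2 + 0 * ht

theorem trace_sq_pow {M : Matrix (Fin 2) (Fin 2) ℤ} (hd : M.det = 1) (h : M.trace ^ 2 = 4)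
    (m : ℕ) : (M ^ m).trace ^ 2 = 4 := by
  obtain ⟨t, ht, ht2⟩ : ∃ t : ℤ, M.trace = t + t ∧ t * t = 1 := by
    have hle : |M.trace| ≤ 2 := by nlinarith [sq_abs M.trace, abs_nonneg M.trace]
    obtain ⟨h1, h2⟩ := abs_le.mp hle
    interval_cases hM : M.trace
    all_goals first | exact ⟨-1, rfl, rfl⟩ | exact ⟨1, rfl, rfl⟩ | norm_num at h
  rw [trace_pow_of_trace_sq_eq_four M hd ht ht2 m,
    show (t ^ m + t ^ m) ^ 2 = 4 * (t * t) ^ m by ring, ht2, one_pow, mul_one]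

theorem trace_sq_of_conj {γ δ : Gamma0 N} (g : GL (Fin 2) ℝ) (m : ℕ)
    (hγ : (((γ : SL(2, ℤ)) : Matrix (Fin 2) (Fin 2) ℤ)).trace ^ 2 = 4)
    (h : g * gamma0GL N (γ ^ m) * g⁻¹ = gamma0GL N δ) :
    (((δ : SL(2, ℤ)) : Matrix (Fin 2) (Fin 2) ℤ)).trace ^ 2 = 4 := by
  have htr : ∀ ε : Gamma0 N, (gamma0GL N ε : GL (Fin 2) ℝ).val.trace =
      (((((ε : SL(2, ℤ)) : Matrix (Fin 2) (Fin 2) ℤ)).trace : ℤ) : ℝ) := by
    intro ε
    simp [Matrix.trace_fin_two]
  have e := congrArg (fun u : GL (Fin 2) ℝ => u.val.trace) h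
  simp only [Units.val_mul, Matrix.trace_units_conj, htr, Int.cast_inj] at e
  rw [← e]
  have hpow : (((γ ^ m : Gamma0 N) : SL(2, ℤ)) : Matrix (Fin 2) (Fin 2) ℤ)
      = (((γ : SL(2, ℤ)) : Matrix (Fin 2) (Fin 2) ℤ)) ^ m := by simp
  rw [hpow]
  exact trace_sq_pow (γ : SL(2, ℤ)).2 hγ m

theorem heckeHom_isParabolicHom {φ : Additive (Gamma0 N) →+ A}
    (hφ : IsParabolicHom (Gamma0 N) φ) : IsParabolicHom (Gamma0 N) (heckeHom 𝕜 N p φ) :=
  heckeHom_cases 𝕜 p (P := fun T => IsParabolicHom (Gamma0 N) (T φ))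
    (fun _ γ hγ => HeckeReps.transferHom_eq_zero _ φ γ
      fun δ g m _ h => hφ δ (trace_sq_of_conj g m hγ h))
    (fun _ γ hγ => HeckeReps.transferHom_eq_zero _ φ γ
      fun δ g m _ h => hφ δ (trace_sq_of_conj g m hγ h))
    (fun _ _ => rfl)

theorem heckeHom_mem_parabolicHoms {φ : Additive (Gamma0 N) →+ A}
    (hφ : φ ∈ parabolicHoms 𝕜 (Gamma0 N) A) :
    heckeHom 𝕜 N p φ ∈ parabolicHoms 𝕜 (Gamma0 N) A :=
  heckeHom_isParabolicHom 𝕜 p hφ

theorem isOfFinOrder_of_conj {γ δ : Gamma0 N} (g : GL (Fin 2) ℝ) (m : ℕ) (hγ : IsOfFinOrder γ)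
    (h : g * gamma0GL N (γ ^ m) * g⁻¹ = gamma0GL N δ) : IsOfFinOrder δ := by
  obtain ⟨n, hn, hn'⟩ := isOfFinOrder_iff_pow_eq_one.mp (hγ.pow (n := m))
  refine isOfFinOrder_iff_pow_eq_one.mpr ⟨n, hn, gamma0GL_injective ?_⟩
  rw [map_pow, ← h, conj_pow, ← map_pow, hn', map_one]
  simp

/-- Homs killing all elements of finite order are preserved. -/
theorem heckeHom_kills_finOrder {φ : Additive (Gamma0 N) →+ A}
    (hφ : ∀ γ : Gamma0 N, IsOfFinOrder γ → φ (Additive.ofMul γ) = 0) :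
    ∀ γ : Gamma0 N, IsOfFinOrder γ → heckeHom 𝕜 N p φ (Additive.ofMul γ) = 0 :=
  heckeHom_cases 𝕜 p
    (P := fun T => ∀ γ : Gamma0 N, IsOfFinOrder γ → T φ (Additive.ofMul γ) = 0)
    (fun _ γ hγ => HeckeReps.transferHom_eq_zero _ φ γ
      fun δ g m _ h => hφ δ (isOfFinOrder_of_conj g m hγ h))
    (fun _ γ hγ => HeckeReps.transferHom_eq_zero _ φ γ
      fun δ g m _ h => hφ δ (isOfFinOrder_of_conj g m hγ h))
    (fun _ _ => rfl)

theorem trace_sq_le_pow {M : Matrix (Fin 2) (Fin 2) ℤ} (hd : M.det = 1) (h : M.trace ^ 2 ≤ 4)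
    (m : ℕ) : (M ^ m).trace ^ 2 ≤ 4 := by
  rcases h.eq_or_lt with h4 | h4
  · exact (trace_sq_pow hd h4 m).le
  have hM : M * M = M.trace • M - 1 := mul_self_eq_trace_smul_sub_one M hd
  set t := M.trace with ht
  have hrec : ∀ n, (M ^ (n + 2)).trace = t * (M ^ (n + 1)).trace - (M ^ n).trace := by
    intro n
    rw [pow_add, pow_two, hM, mul_sub, mul_one, mul_smul_comm, ← pow_succ, Matrix.trace_sub,
      Matrix.trace_smul, smul_eq_mul]
  have hinv : ∀ n, (M ^ n).trace ^ 2 + (M ^ (n + 1)).trace ^ 2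
      - t * (M ^ n).trace * (M ^ (n + 1)).trace = 4 - t ^ 2 := by
    intro n
    induction n with
    | zero => simp [Matrix.trace_one, ← ht]; ring
    | succ n ih => rw [hrec n]; linear_combination ih
  nlinarith [hinv m, sq_nonneg (2 * (M ^ (m + 1)).trace - t * (M ^ m).trace)]

theorem trace_sq_le_of_conj {γ δ : Gamma0 N} (g : GL (Fin 2) ℝ) (m : ℕ)
    (hγ : FLTA.Gamma0.IsSmallTrace (γ : SL(2, ℤ)))
    (h : g * gamma0GL N (γ ^ m) * g⁻¹ = gamma0GL N δ) :
    FLTA.Gamma0.IsSmallTrace (δ : SL(2, ℤ)) := by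
  have htr : ∀ ε : Gamma0 N, (gamma0GL N ε : GL (Fin 2) ℝ).val.trace =
      (((((ε : SL(2, ℤ)) : Matrix (Fin 2) (Fin 2) ℤ)).trace : ℤ) : ℝ) := by
    intro ε
    simp [Matrix.trace_fin_two]
  have e := congrArg (fun u : GL (Fin 2) ℝ => u.val.trace) h
  simp only [Units.val_mul, Matrix.trace_units_conj, htr, Int.cast_inj] at e
  show _ ^ 2 ≤ (4 : ℤ)
  rw [← e]
  have hpow : (((γ ^ m : Gamma0 N) : SL(2, ℤ)) : Matrix (Fin 2) (Fin 2) ℤ)
      = (((γ : SL(2, ℤ)) : Matrix (Fin 2) (Fin 2) ℤ)) ^ m := by simp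
  rw [hpow]
  exact trace_sq_le_pow (γ : SL(2, ℤ)).2 hγ m

/-- `heckeHom` preserves the refined parabolic homs. -/
theorem heckeHom_isParHom0 {φ : Additive (Gamma0 N) →+ A}
    (hφ : FLTA.Gamma0.IsParHom0 (Gamma0 N) φ) :
    FLTA.Gamma0.IsParHom0 (Gamma0 N) (heckeHom 𝕜 N p φ) :=
  heckeHom_cases 𝕜 p (P := fun T => FLTA.Gamma0.IsParHom0 (Gamma0 N) (T φ))
    (fun _ γ hγ => HeckeReps.transferHom_eq_zero _ φ γ
      fun δ g m _ h => hφ δ (trace_sq_le_of_conj g m hγ h))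
    (fun _ γ hγ => HeckeReps.transferHom_eq_zero _ φ γ
      fun δ g m _ h => hφ δ (trace_sq_le_of_conj g m hγ h))
    (fun _ _ => rfl)

theorem heckeHom_mem_homPar0 {φ : Additive (Gamma0 N) →+ A}
    (hφ : φ ∈ FLTA.Gamma0.homPar0 𝕜 (Gamma0 N) A) :
    heckeHom 𝕜 N p φ ∈ FLTA.Gamma0.homPar0 𝕜 (Gamma0 N) A :=
  heckeHom_isParHom0 𝕜 p hφ

end preserve

section involution

/-- `jConjGamma0` as an automorphism. -/
def jConjEquiv (N : ℕ) : Gamma0 N ≃* Gamma0 N :=
  { jConjGamma0 N with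
    invFun := jConjGamma0 N
    left_inv := jConjGamma0_jConjGamma0 N
    right_inv := jConjGamma0_jConjGamma0 N }

theorem conj_J_gamma0GL (γ : Gamma0 N) :
    MulAut.conj UpperHalfPlane.J (gamma0GL N γ) = gamma0GL N (jConjEquiv N γ) := by
  have hJ : (UpperHalfPlane.J)⁻¹ = UpperHalfPlane.J :=
    inv_eq_of_mul_eq_one_right (by rw [← sq, J_sq])
  ext i j
  fin_cases i <;> fin_cases j <;>
    simp [hJ, jConjEquiv, Matrix.mul_apply, Matrix.vecMul, dotProduct, Fin.sum_univ_two]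

theorem conj_J_heckeMatrix {p : ℕ} [NeZero p] (x : ZMod p) :
    ∃ δ : Gamma0 N, MulAut.conj UpperHalfPlane.J (ModularForm.heckeMatrix p x.val)
      = gamma0GL N δ * ModularForm.heckeMatrix p (-x).val := by
  have hp : p ≠ 0 := NeZero.ne p
  obtain ⟨e, he⟩ : (p : ℤ) ∣ (x.val : ℤ) + ((-x).val : ℤ) := by
    rw [← ZMod.intCast_zmod_eq_zero_iff_dvd]
    simp
  refine ⟨⟨⟨!![1, -e; 0, 1], by simp⟩, mem_Gamma0_of_dvd (by simp)⟩, ?_⟩
  have hJ : (UpperHalfPlane.J)⁻¹ = UpperHalfPlane.J :=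
    inv_eq_of_mul_eq_one_right (by rw [← sq, J_sq])
  have he' : (x.val : ℝ) + ((-x).val : ℝ) = (p : ℝ) * (e : ℝ) := by exact_mod_cast he
  ext i j
  fin_cases i <;> fin_cases j <;>
    simp [hJ, hp, Matrix.mul_apply, Matrix.vecMul, dotProduct, Fin.sum_univ_two, -ZMod.natCast_val]
  linear_combination -he'

theorem conj_J_diag (p : ℕ) :
    MulAut.conj UpperHalfPlane.J (ModularForm.heckeDiagMatrix p)
      = ModularForm.heckeDiagMatrix p := by
  rcases eq_or_ne p 0 with rfl | hp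
  · simp
  have hJ : (UpperHalfPlane.J)⁻¹ = UpperHalfPlane.J :=
    inv_eq_of_mul_eq_one_right (by rw [← sq, J_sq])
  ext i j
  fin_cases i <;> fin_cases j <;> simp [hJ, hp, Matrix.mul_apply, Fin.sum_univ_two]

variable (𝕜 : Type*) [Semiring 𝕜] {A : Type*} [AddCommGroup A] [Module 𝕜 A]

theorem transferHom_charInvolution {ι : Type*} [Fintype ι] (R : HeckeReps (gamma0GL N) ι)
    (σ : ι ≃ ι)
    (h : ∀ x, ∃ δ, MulAut.conj UpperHalfPlane.J (R.rep x) = gamma0GL N δ * R.rep (σ x))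
    (φ : Additive (Gamma0 N) →+ A) :
    R.transferHom (charInvolution N 𝕜 A φ) = charInvolution N 𝕜 A (R.transferHom φ) := by
  choose d hd using h
  have key := R.transferHom_congr (R.map (jConjEquiv N) (MulAut.conj UpperHalfPlane.J)
    conj_J_gamma0GL) σ d hd φ
  rw [HeckeReps.transferHom_map] at key
  conv_rhs => rw [← key]
  refine AddMonoidHom.ext fun γ => ?_
  obtain ⟨γ, rfl⟩ := Additive.ofMul.surjective γ
  show _ = R.transferHom _ (Additive.ofMul (jConjGamma0 N (jConjGamma0 N γ)))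
  rw [jConjGamma0_jConjGamma0]
  rfl

theorem heckeHom_charInvolution [NeZero N] (p : ℕ) (φ : Additive (Gamma0 N) →+ A) :
    heckeHom 𝕜 N p (charInvolution N 𝕜 A φ) = charInvolution N 𝕜 A (heckeHom 𝕜 N p φ) :=
  heckeHom_cases 𝕜 p
    (P := fun T => T (charInvolution N 𝕜 A φ) = charInvolution N 𝕜 A (T φ))
    (fun h => transferHom_charInvolution 𝕜 (repsU h) (Equiv.neg _) conj_J_heckeMatrix φ)
    (fun h => transferHom_charInvolution 𝕜 (repsT h) (Equiv.optionCongr (Equiv.neg _))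
      (fun x => by
        induction x using OnePoint.rec with
        | infty => exact ⟨1, by rw [map_one, one_mul]; exact conj_J_diag p⟩
        | coe j => exact conj_J_heckeMatrix j) φ)
    (map_zero _).symm

end involution

end FLTA.Periods

end
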