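import Mathlib
import Fermat.Prelude.Def_ModularCurve_PeriodHomPair

/-!
# Equivariant primitives of weight two cusp forms on `Γ₀(N)`

For `f : CuspForm (Gamma0 N) 2` there is a primitive `prim N f : ℍ → ℂ` which tends to `0` at
infinity, has a limit at every cusp and satisfies `prim (γ • τ) - prim τ = const` for `γ ∈ Γ₀(N)`.
It is unique, so `ModularCurve.periodMap` is linear.
-/

set_option autoImplicit false

noncomputable section

open UpperHalfPlane hiding I
open CongruenceSubgroup ModularCurve ModularCurve.Period Filter Topology Complex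
open scoped MatrixGroups ModularForm Manifold Real

namespace FLTA.Periods

/-- `F` is a primitive of `f` on the upper half plane. -/
def IsPrimitive (f F : ℍ → ℂ) : Prop :=
  ∀ τ : ℍ, HasDerivAt (F ∘ ofComplex) (f τ) (τ : ℂ)

lemma IsPrimitive.sub_const {f F : ℍ → ℂ} (hF : IsPrimitive f F) (c : ℂ) :
    IsPrimitive f (fun τ => F τ - c) :=
  fun τ => (hF τ).sub_const c

lemma IsPrimitive.add {f g F G : ℍ → ℂ} (hF : IsPrimitive f F) (hG : IsPrimitive g G) :
    IsPrimitive (f + g) (F + G) :=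
  fun τ => (hF τ).add (hG τ)

lemma IsPrimitive.const_smul {f F : ℍ → ℂ} (hF : IsPrimitive f F) (c : ℂ) :
    IsPrimitive (c • f) (c • F) :=
  fun τ => (hF τ).const_smul c

lemma IsPrimitive.continuous {f F : ℍ → ℂ} (hF : IsPrimitive f F) : Continuous F := by
  rw [continuous_iff_continuousAt]
  intro τ
  have h := (hF τ).continuousAt.comp (f := ((↑) : ℍ → ℂ)) UpperHalfPlane.continuous_coe.continuousAt
  have he : (F ∘ ofComplex) ∘ ((↑) : ℍ → ℂ) = F := by
    funext σ; simp
  rwa [he] at h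

/-- Two primitives of the same function differ by a constant. -/
lemma IsPrimitive.exists_sub_eq {f F G : ℍ → ℂ} (hF : IsPrimitive f F) (hG : IsPrimitive f G) :
    ∃ c, ∀ τ, F τ - G τ = c := by
  have hdiff : DifferentiableOn ℂ (F ∘ ofComplex - G ∘ ofComplex) upperHalfPlaneSet := fun z hz =>
    ((hF ⟨z, hz⟩).sub (hG ⟨z, hz⟩)).differentiableAt.differentiableWithinAt
  have hzero : Set.EqOn (deriv (F ∘ ofComplex - G ∘ ofComplex)) 0 upperHalfPlaneSet := fun z hz => by
    simpa using ((hF ⟨z, hz⟩).sub (hG ⟨z, hz⟩)).deriv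
  have hpre : IsPreconnected upperHalfPlaneSet :=
    (convex_halfSpace_im_gt 0).isPreconnected
  obtain ⟨c, hc⟩ := isOpen_upperHalfPlaneSet.exists_eq_add_of_deriv_eq
    (f := F ∘ ofComplex - G ∘ ofComplex) (g := fun _ => 0) hpre hdiff (differentiableOn_const 0)
    (fun z hz => by simpa using hzero hz)
  exact ⟨c, fun τ => by simpa using hc τ.im_pos⟩

/-- Derivative of a Möbius transformation in `SL(2, ℤ)`. -/
lemma hasDerivAt_smul_SL (g : SL(2, ℤ)) (τ : ℍ) :
    HasDerivAt (fun z : ℂ => ((g • ofComplex z : ℍ) : ℂ))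
      ((denom (g : GL (Fin 2) ℝ) τ ^ 2)⁻¹) (τ : ℂ) := by
  have h1 : ((g : GL (Fin 2) ℝ).val.det : ℝ) = 1 :=
    ((Matrix.SpecialLinearGroup.map (Int.castRingHom ℝ)) g).det_coe
  have h := (hasStrictDerivAt_smul (g := (g : GL (Fin 2) ℝ)) (by rw [h1]; norm_num) τ).hasDerivAt
  rw [h1] at h
  simpa [one_div] using h

/-- Change of variables: if `F' = f` then `(F ∘ g)' = f ∣[2] g`. -/
lemma IsPrimitive.comp_smul {f F : ℍ → ℂ} (hF : IsPrimitive f F) (g : SL(2, ℤ)) :
    IsPrimitive (f ∣[(2 : ℤ)] g) (fun τ => F (g • τ)) := by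
  intro τ
  have h := HasDerivAt.comp (τ : ℂ) (h := fun z : ℂ => ((g • ofComplex z : ℍ) : ℂ))
    (by simpa using hF (g • τ)) (hasDerivAt_smul_SL g τ)
  have he : (F ∘ ofComplex) ∘ (fun z : ℂ => ((g • ofComplex z : ℍ) : ℂ))
      = (fun σ : ℍ => F (g • σ)) ∘ ofComplex := by
    funext z; simp
  rw [he] at h
  refine h.congr_deriv ?_
  rw [ModularForm.SL_slash_apply, zpow_neg]
  norm_cast

/-- A holomorphic periodic function tending to `0` at infinity has a primitive with a limit at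
infinity. -/
lemma exists_primitive_of_periodic {f : ℍ → ℂ} {h : ℝ} (hh : 0 < h)
    (hper : Function.Periodic (f ∘ ofComplex) h) (hhol : MDiff f) (hz : IsZeroAtImInfty f) :
    ∃ F : ℍ → ℂ, IsPrimitive f F ∧ ∃ L, Tendsto F atImInfty (𝓝 L) := by
  have hd : DifferentiableOn ℂ (cuspFunction h f) (Metric.ball 0 1) :=
    differentiableOn_cuspFunction_ball hh hper hhol hz.isBoundedAtImInfty
  have h0 : cuspFunction h f 0 = 0 := by
    rw [cuspFunction_apply_zero hh (analyticAt_cuspFunction_zero hh hper hhol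
      hz.isBoundedAtImInfty) hper]
    exact hz.valueAtInfty_eq_zero
  have hd' : DifferentiableOn ℂ (dslope (cuspFunction h f) 0) (Metric.ball 0 1) :=
    (Complex.differentiableOn_dslope (Metric.isOpen_ball.mem_nhds (Metric.mem_ball_self one_pos))).mpr hd
  obtain ⟨H, hH⟩ := hd'.isExactOn_ball
  have hmem : ∀ τ : ℍ, Function.Periodic.qParam h (τ : ℂ) ∈ Metric.ball (0 : ℂ) 1 := fun τ => by
    simpa using Function.Periodic.norm_qParam_lt_one hh τ.im_pos
  refine ⟨fun τ => (h : ℂ) / (2 * π * I) * H (Function.Periodic.qParam h τ), fun τ => ?_, ?_⟩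
  · have hq : HasDerivAt (Function.Periodic.qParam h)
        (Function.Periodic.qParam h (τ : ℂ) * (2 * π * I / h)) (τ : ℂ) := by
      unfold Function.Periodic.qParam
      simpa using (((hasDerivAt_id (τ : ℂ)).const_mul (2 * π * I)).div_const (h : ℂ)).cexp
    have hc := ((hH _ (hmem τ)).comp (τ : ℂ) hq).const_mul ((h : ℂ) / (2 * π * I))
    have he : ((fun σ : ℍ => (h : ℂ) / (2 * π * I) * H (Function.Periodic.qParam h σ)) ∘ ofComplex)
        =ᶠ[𝓝 (τ : ℂ)] fun z => (h : ℂ) / (2 * π * I) * (H ∘ Function.Periodic.qParam h) z := by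
      filter_upwards [isOpen_upperHalfPlaneSet.mem_nhds τ.im_pos] with z hz
      simp [ofComplex_apply_of_im_pos hz]
    refine (hc.congr_of_eventuallyEq he).congr_deriv ?_
    have hne : Function.Periodic.qParam h (τ : ℂ) ≠ 0 := Function.Periodic.qParam_ne_zero _
    rw [dslope_of_ne _ hne, slope_def_field, h0, sub_zero, sub_zero,
      eq_cuspFunction τ hh.ne' hper]
    have hh' : (h : ℂ) ≠ 0 := by exact_mod_cast hh.ne'
    field_simp
  · refine ⟨(h : ℂ) / (2 * π * I) * H 0, Tendsto.const_mul _ ?_⟩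
    exact ((hH 0 (Metric.mem_ball_self one_pos)).continuousAt.tendsto).comp
      (qParam_tendsto_atImInfty hh)

variable (N : ℕ) [NeZero N]

omit [NeZero N] in
lemma slash_eq_of_mem_Gamma0 (f : CuspForm (Gamma0 N) 2) {γ : SL(2, ℤ)} (hγ : γ ∈ Gamma0 N) :
    (⇑f) ∣[(2 : ℤ)] γ = ⇑f :=
  SlashInvariantFormClass.slash_action_eq f _ (Subgroup.mem_map_of_mem _ hγ)

omit [NeZero N] in
/-- Every `δ T^N δ⁻¹` lies in `Γ₀(N)`. -/
lemma conj_T_zpow_mem_Gamma0 (δ : SL(2, ℤ)) :
    δ * ModularGroup.T ^ (N : ℤ) * δ⁻¹ ∈ Gamma0 N := by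
  have hT : ModularGroup.T ^ (N : ℤ) ∈ CongruenceSubgroup.Gamma N := by
    rw [Gamma_mem, ModularGroup.coe_T_zpow]
    simp
  have h := (Gamma_normal N).conj_mem _ hT δ
  obtain ⟨-, -, h10, -⟩ := Gamma_mem.mp h
  exact Gamma0_mem.mpr h10

omit [NeZero N] in
/-- `f ∣[2] δ` is invariant under translation by `N`. -/
lemma slash_periodic (f : CuspForm (Gamma0 N) 2) (δ : SL(2, ℤ)) :
    Function.Periodic (((⇑f) ∣[(2 : ℤ)] δ) ∘ ofComplex) ((N : ℝ) : ℂ) := by
  have hinv : ((⇑f) ∣[(2 : ℤ)] δ) ∣[(2 : ℤ)] (ModularGroup.T ^ (N : ℤ)) = (⇑f) ∣[(2 : ℤ)] δ := by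
    rw [← SlashAction.slash_mul,
      show δ * ModularGroup.T ^ (N : ℤ) = δ * ModularGroup.T ^ (N : ℤ) * δ⁻¹ * δ by group,
      SlashAction.slash_mul, slash_eq_of_mem_Gamma0 N f (conj_T_zpow_mem_Gamma0 N δ)]
  intro z
  have hc : ((N : ℝ) : ℂ) = (N : ℂ) := by norm_num
  by_cases hz : 0 < z.im
  · have hz' : 0 < (z + ((N : ℝ) : ℂ)).im := by simpa using hz
    have hv : ofComplex (z + ((N : ℝ) : ℂ)) = ((N : ℤ) : ℝ) +ᵥ ofComplex z := by
      apply UpperHalfPlane.ext
      rw [coe_vadd, ofComplex_apply_of_im_pos hz, ofComplex_apply_of_im_pos hz']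
      simp [add_comm]
    have hh := congrFun hinv (ofComplex z)
    rw [ModularForm.SL_slash_apply, modular_T_zpow_smul] at hh
    rw [Function.comp_apply, Function.comp_apply, hv]
    have hd : denom (ModularGroup.T ^ (N : ℤ) : SL(2, ℤ)) (ofComplex z) = 1 := by
      rw [ModularGroup.denom_apply]
      simp [ModularGroup.coe_T_zpow, -zpow_natCast]
    rwa [hd, one_zpow, mul_one] at hh
  · have h1 : z.im ≤ 0 := le_of_not_gt hz
    have h2 : (z + ((N : ℝ) : ℂ)).im ≤ 0 := by simpa using h1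
    rw [Function.comp_apply, Function.comp_apply, ofComplex_apply_of_im_nonpos h1,
      ofComplex_apply_of_im_nonpos h2]

lemma exists_primitive_slash (f : CuspForm (Gamma0 N) 2) (δ : SL(2, ℤ)) :
    ∃ F : ℍ → ℂ, IsPrimitive ((⇑f) ∣[(2 : ℤ)] δ) F ∧ ∃ L, Tendsto F atImInfty (𝓝 L) :=
  exists_primitive_of_periodic (h := (N : ℝ)) (by exact_mod_cast Nat.pos_of_ne_zero (NeZero.ne N))
    (slash_periodic N f δ) ((CuspFormClass.holo f).slash 2 _)
    (CuspFormClass.zero_at_infty_slash f δ)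

/-- Every weight two cusp form has an equivariant primitive. -/
theorem exists_hasEquivariantPrimitive (f : CuspForm (Gamma0 N) 2) :
    ∃ F : ℍ → ℂ, HasEquivariantPrimitive N f F := by
  obtain ⟨F, hF, L, hL⟩ := exists_primitive_slash N f 1
  rw [SlashAction.slash_one] at hF
  refine ⟨fun τ => F τ - L, (hF.sub_const L), ?_, ?_, ?_⟩
  · simpa using hL.sub_const L
  · intro γ
    have h2 := (hF.sub_const L).comp_smul (γ : SL(2, ℤ))
    rw [slash_eq_of_mem_Gamma0 N f γ.2] at h2
    exact h2.exists_sub_eq (hF.sub_const L)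
  · intro δ
    obtain ⟨G, hG, M, hM⟩ := exists_primitive_slash N f δ
    obtain ⟨c, hc⟩ := ((hF.sub_const L).comp_smul δ).exists_sub_eq hG
    refine ⟨c + M, ?_⟩
    have he : (fun w : ℍ => F (δ • w) - L) = fun w => c + G w := funext fun w => by
      have := hc w
      linear_combination this
    rw [he]
    exact hM.const_add c

omit [NeZero N] in
/-- The normalised equivariant primitive is unique. -/
theorem hasEquivariantPrimitive_unique {f : CuspForm (Gamma0 N) 2} {F G : ℍ → ℂ}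
    (hF : HasEquivariantPrimitive N f F) (hG : HasEquivariantPrimitive N f G) : F = G := by
  obtain ⟨c, hc⟩ := IsPrimitive.exists_sub_eq (f := ⇑f) hF.1 hG.1
  have h := hF.2.1.sub hG.2.1
  simp only [hc, sub_zero] at h
  have hc0 : c = 0 := tendsto_nhds_unique tendsto_const_nhds h
  funext τ
  exact sub_eq_zero.mp ((hc τ).trans hc0)

/-- The equivariant primitive of `f`. -/
def prim (f : CuspForm (Gamma0 N) 2) : ℍ → ℂ :=
  (exists_hasEquivariantPrimitive N f).choose

lemma prim_spec (f : CuspForm (Gamma0 N) 2) : HasEquivariantPrimitive N f (prim N f) :=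
  (exists_hasEquivariantPrimitive N f).choose_spec

lemma isPrimitive_prim (f : CuspForm (Gamma0 N) 2) : IsPrimitive (⇑f) (prim N f) :=
  (prim_spec N f).1

lemma prim_eq_of {f : CuspForm (Gamma0 N) 2} {F : ℍ → ℂ} (hF : HasEquivariantPrimitive N f F) :
    prim N f = F :=
  hasEquivariantPrimitive_unique N (prim_spec N f) hF

/-- The period of `f` along `γ`, computed with any base point. -/
theorem periodMap_apply_eq (f : CuspForm (Gamma0 N) 2) (γ : Gamma0 N) (z : ℍ) :
    periodMap N f (Additive.ofMul γ) = prim N f ((γ : SL(2, ℤ)) • z) - prim N f z := by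
  obtain ⟨F₀, h₀, he⟩ := periodMap_def N f (prim_spec N f)
  rw [prim_eq_of N h₀, he, IsEquivariantPrimitive.periodHom_apply]
  exact (h₀.2.2.1.sub_eq_period γ z).symm

/-- The period computed from any primitive whatsoever. -/
theorem periodMap_apply_eq' {f : CuspForm (Gamma0 N) 2} {F : ℍ → ℂ} (hF : IsPrimitive (⇑f) F)
    (γ : Gamma0 N) (z : ℍ) :
    periodMap N f (Additive.ofMul γ) = F ((γ : SL(2, ℤ)) • z) - F z := by
  obtain ⟨c, hc⟩ := (isPrimitive_prim N f).exists_sub_eq hF
  rw [periodMap_apply_eq N f γ z]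
  linear_combination hc ((γ : SL(2, ℤ)) • z) - hc z

lemma hasEquivariantPrimitive_add (f g : CuspForm (Gamma0 N) 2) :
    HasEquivariantPrimitive N (f + g) (prim N f + prim N g) := by
  refine ⟨?_, ?_, ?_, ?_⟩
  · intro τ
    simpa using (isPrimitive_prim N f).add (isPrimitive_prim N g) τ
  · simpa [Pi.add_def] using (prim_spec N f).2.1.add (prim_spec N g).2.1
  · intro γ
    obtain ⟨c, hc⟩ := (prim_spec N f).2.2.1 γ
    obtain ⟨d, hd⟩ := (prim_spec N g).2.2.1 γ
    refine ⟨c + d, fun z => ?_⟩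
    simp only [Pi.add_apply]
    linear_combination hc z + hd z
  · intro δ
    obtain ⟨c, hc⟩ := (prim_spec N f).2.2.2 δ
    obtain ⟨d, hd⟩ := (prim_spec N g).2.2.2 δ
    exact ⟨c + d, hc.add hd⟩

lemma hasEquivariantPrimitive_smul (a : ℂ) (f : CuspForm (Gamma0 N) 2) :
    HasEquivariantPrimitive N (a • f) (a • prim N f) := by
  refine ⟨?_, ?_, ?_, ?_⟩
  · intro τ
    simpa using (isPrimitive_prim N f).const_smul a τ
  · simpa [Pi.smul_def] using (prim_spec N f).2.1.const_smul a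
  · intro γ
    obtain ⟨c, hc⟩ := (prim_spec N f).2.2.1 γ
    refine ⟨a * c, fun z => ?_⟩
    simp only [Pi.smul_apply, smul_eq_mul]
    linear_combination a * hc z
  · intro δ
    obtain ⟨c, hc⟩ := (prim_spec N f).2.2.2 δ
    exact ⟨a • c, hc.const_smul a⟩

lemma prim_add (f g : CuspForm (Gamma0 N) 2) : prim N (f + g) = prim N f + prim N g :=
  prim_eq_of N (hasEquivariantPrimitive_add N f g)

lemma prim_smul (a : ℂ) (f : CuspForm (Gamma0 N) 2) : prim N (a • f) = a • prim N f :=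
  prim_eq_of N (hasEquivariantPrimitive_smul N a f)

/-- The period map as a linear map. -/
def periodMapLin : CuspForm (Gamma0 N) 2 →ₗ[ℂ] (Additive (Gamma0 N) →+ ℂ) where
  toFun f := periodMap N f
  map_add' f g := by
    refine AddMonoidHom.ext fun x => ?_
    obtain ⟨γ, rfl⟩ := Additive.ofMul.surjective x
    rw [AddMonoidHom.add_apply, periodMap_apply_eq N (f + g) γ UpperHalfPlane.I,
      periodMap_apply_eq N f γ UpperHalfPlane.I, periodMap_apply_eq N g γ UpperHalfPlane.I,
      prim_add]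
    simp only [Pi.add_apply]
    ring
  map_smul' a f := by
    refine AddMonoidHom.ext fun x => ?_
    obtain ⟨γ, rfl⟩ := Additive.ofMul.surjective x
    show periodMap N (a • f) (Additive.ofMul γ) = a • periodMap N f (Additive.ofMul γ)
    rw [periodMap_apply_eq N (a • f) γ UpperHalfPlane.I,
      periodMap_apply_eq N f γ UpperHalfPlane.I, prim_smul]
    simp only [Pi.smul_apply, smul_eq_mul]
    ring

@[simp] lemma periodMapLin_apply (f : CuspForm (Gamma0 N) 2) : periodMapLin N f = periodMap N f :=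
  rfl

theorem existsPeriodMapLinear : ExistsPeriodMapLinear N :=
  ⟨periodMapLin N, periodMapLin_apply N⟩

theorem periodHomPair_apply (f g : CuspForm (Gamma0 N) 2) :
    periodHomPair N (f, g) = (periodMap N f + charInvolution N ℂ ℂ (periodMap N f))
      + (periodMap N g - charInvolution N ℂ ℂ (periodMap N g)) := by
  obtain ⟨pml, hpml, he⟩ := periodHomPair_def N (existsPeriodMapLinear N)
  rw [he]
  simp [hpml]

omit [NeZero N] in
/-- An element of trace `±2` is conjugate to an upper triangular one. -/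
lemma exists_conj_upper_triangular (γ : SL(2, ℤ))
    (hγ : (γ : Matrix (Fin 2) (Fin 2) ℤ).trace ^ 2 = 4) :
    ∃ δ : SL(2, ℤ), (δ⁻¹ * γ * δ) 1 0 = 0 := by
  by_cases hc : γ 1 0 = 0
  · exact ⟨1, by simpa using hc⟩
  have htr : (γ 0 0 + γ 1 1) ^ 2 = 4 := by rwa [Matrix.trace_fin_two] at hγ
  have hdet : γ 0 0 * γ 1 1 - γ 0 1 * γ 1 0 = 1 := by
    rw [← Matrix.det_fin_two]; exact γ.det_coe
  obtain ⟨g, p, q, hg, hpq, hp, hq⟩ := Int.exists_gcd_one' (m := γ 0 0 - γ 1 1) (n := 2 * γ 1 0)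
    (Int.gcd_pos_of_ne_zero_right _ (by simpa using hc))
  obtain ⟨u, v, huv⟩ := Int.isCoprime_iff_gcd_eq_one.mpr hpq
  obtain ⟨δ, hδ⟩ : ∃ δ : SL(2, ℤ), (δ : Matrix (Fin 2) (Fin 2) ℤ) = !![p, -v; q, u] :=
    ⟨⟨!![p, -v; q, u], by rw [Matrix.det_fin_two_of]; linear_combination huv⟩, rfl⟩
  refine ⟨δ, ?_⟩
  have hg' : (g : ℤ) ^ 2 ≠ 0 := pow_ne_zero _ (by exact_mod_cast hg.ne')
  have hz : (g : ℤ) ^ 2 * (γ 1 0 * p ^ 2 + (γ 1 1 - γ 0 0) * (p * q) - γ 0 1 * q ^ 2) = 0 := by
    calc _ = γ 1 0 * (p * g) ^ 2 + (γ 1 1 - γ 0 0) * ((p * g) * (q * g))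
        - γ 0 1 * (q * g) ^ 2 := by ring
      _ = 0 := by
        rw [← hp, ← hq]
        linear_combination (-γ 1 0) * htr + (4 * γ 1 0) * hdet
  have hz' := (mul_eq_zero.mp hz).resolve_left hg'
  rw [Matrix.SpecialLinearGroup.coe_mul, Matrix.SpecialLinearGroup.coe_mul,
    Matrix.SpecialLinearGroup.coe_inv]
  rw [hδ]
  simp [Matrix.mul_apply, Matrix.vecMul, dotProduct, Fin.sum_univ_two, Matrix.adjugate_fin_two]
  linear_combination hz'

omit [NeZero N] in
/-- An upper triangular element of `SL(2, ℤ)` fixes the filter at infinity. -/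
lemma tendsto_smul_atImInfty {u : SL(2, ℤ)} (hu : u 1 0 = 0) :
    Tendsto (fun w : ℍ => u • w) atImInfty atImInfty := by
  have hd : u 1 1 = 1 ∨ u 1 1 = -1 := by
    have h := u.det_coe
    rw [Matrix.det_fin_two, hu, mul_zero, sub_zero] at h
    exact Int.eq_one_or_neg_one_of_mul_eq_one (by rw [mul_comm]; exact h)
  have him : ∀ w : ℍ, (u • w).im = w.im := fun w => by
    rw [ModularGroup.im_smul_eq_div_normSq, ModularGroup.denom_apply, hu]
    rcases hd with h | h <;> simp [h]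
  rw [atImInfty, tendsto_comap_iff]
  exact Tendsto.congr (fun w => (him w).symm) tendsto_comap

/-- Periods of parabolic elements vanish. -/
theorem periodMap_mem_parabolicHoms (f : CuspForm (Gamma0 N) 2) :
    periodMap N f ∈ parabolicHoms ℂ (Gamma0 N) ℂ := by
  rw [mem_parabolicHoms_iff]
  intro γ hγ
  obtain ⟨δ, hδ⟩ := exists_conj_upper_triangular (γ : SL(2, ℤ)) hγ
  obtain ⟨L, hL⟩ := (prim_spec N f).2.2.2 δ
  have h := (hL.comp (tendsto_smul_atImInfty hδ)).sub hL
  rw [sub_self] at h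
  refine (tendsto_nhds_unique (h.congr fun w => ?_) tendsto_const_nhds).symm
  rw [periodMap_apply_eq N f γ (δ • w)]
  simp only [Function.comp_apply, mul_smul, smul_inv_smul]

/-- The range of `periodHomPair` consists of parabolic homomorphisms. -/
theorem periodHomPair_mem_parabolicHoms (x : CuspForm (Gamma0 N) 2 × CuspForm (Gamma0 N) 2) :
    periodHomPair N x ∈ parabolicHoms ℂ (Gamma0 N) ℂ := by
  rw [← Prod.mk.eta (p := x), periodHomPair_apply]
  exact add_mem
    (add_mem (periodMap_mem_parabolicHoms N _)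
      (charInvolution_mem_parabolicHoms N ℂ ℂ (periodMap_mem_parabolicHoms N _)))
    (sub_mem (periodMap_mem_parabolicHoms N _)
      (charInvolution_mem_parabolicHoms N ℂ ℂ (periodMap_mem_parabolicHoms N _)))

end FLTA.Periods
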