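/-
Hecke equivariance of the weight two period map.
-/
import Fermat.Agent.Periods.Primitive
import Fermat.Agent.Periods.Hecke

set_option autoImplicit false

noncomputable section

namespace FLTA.Periods

open CongruenceSubgroup ModularCurve ModularCurve.Period UpperHalfPlane
open scoped MatrixGroups ModularForm OnePoint Topology

open P2MW.S_ModularForm_heckeT_slash_eq_self_of_mem_Gamma0.ModularForm.HeckeSlashInvariance
  (heckeRep heckeT_eq_sum_onePoint heckeU_eq_sum_zmod)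

variable {N : ℕ}

theorem isPrimitive_comp_heckeMatrix {f F : ℍ → ℂ} (hF : IsPrimitive f F) {p : ℕ} (hp : p ≠ 0)
    (j : ℕ) :
    IsPrimitive (f ∣[(2 : ℤ)] ModularForm.heckeMatrix p j)
      (fun τ => F (ModularForm.heckeMatrix p j • τ)) := by
  intro τ
  have hg : HasDerivAt (fun z : ℂ => (z + (j : ℂ)) / (p : ℂ)) ((p : ℂ)⁻¹) (τ : ℂ) := by
    simpa using ((hasDerivAt_id (τ : ℂ)).add_const (j : ℂ)).div_const (p : ℂ)
  have hpt : ((ModularForm.heckeMatrix p j • τ : ℍ) : ℂ) = ((τ : ℂ) + j) / p :=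
    ModularForm.coe_heckeMatrix_smul hp j τ
  have hd := hF (ModularForm.heckeMatrix p j • τ)
  rw [hpt] at hd
  have heq : ((fun σ => F (ModularForm.heckeMatrix p j • σ)) ∘ ofComplex) =ᶠ[𝓝 (τ : ℂ)]
      fun z => (F ∘ ofComplex) ((z + (j : ℂ)) / (p : ℂ)) := by
    filter_upwards [isOpen_upperHalfPlaneSet.mem_nhds τ.im_pos] with z hz
    simp only [Function.comp_apply, ofComplex_apply_of_im_pos hz]
    congr 1
    rw [← ofComplex_apply (ModularForm.heckeMatrix p j • (⟨z, hz⟩ : ℍ)),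
      ModularForm.coe_heckeMatrix_smul hp]
  refine ((hd.comp (τ : ℂ) hg).congr_of_eventuallyEq heq).congr_deriv ?_
  rw [ModularForm.slash_heckeMatrix_apply 2 hp]
  ring

theorem isPrimitive_comp_heckeDiagMatrix {f F : ℍ → ℂ} (hF : IsPrimitive f F) {p : ℕ}
    (hp : p ≠ 0) :
    IsPrimitive (f ∣[(2 : ℤ)] ModularForm.heckeDiagMatrix p)
      (fun τ => F (ModularForm.heckeDiagMatrix p • τ)) := by
  intro τ
  have hg : HasDerivAt (fun z : ℂ => (p : ℂ) * z) (p : ℂ) (τ : ℂ) := by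
    simpa using (hasDerivAt_id (τ : ℂ)).const_mul (p : ℂ)
  have hpt : ((ModularForm.heckeDiagMatrix p • τ : ℍ) : ℂ) = (p : ℂ) * τ :=
    ModularForm.coe_heckeDiagMatrix_smul hp τ
  have hd := hF (ModularForm.heckeDiagMatrix p • τ)
  rw [hpt] at hd
  have heq : ((fun σ => F (ModularForm.heckeDiagMatrix p • σ)) ∘ ofComplex) =ᶠ[𝓝 (τ : ℂ)]
      fun z => (F ∘ ofComplex) ((p : ℂ) * z) := by
    filter_upwards [isOpen_upperHalfPlaneSet.mem_nhds τ.im_pos] with z hz
    simp only [Function.comp_apply, ofComplex_apply_of_im_pos hz]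
    congr 1
    rw [← ofComplex_apply (ModularForm.heckeDiagMatrix p • (⟨z, hz⟩ : ℍ)),
      ModularForm.coe_heckeDiagMatrix_smul hp]
  refine ((hd.comp (τ : ℂ) hg).congr_of_eventuallyEq heq).congr_deriv ?_
  rw [ModularForm.slash_heckeDiagMatrix_apply 2 hp, show (2 : ℤ) - 1 = 1 by norm_num, zpow_one]
  ring

theorem isPrimitive_comp_heckeRep {f F : ℍ → ℂ} (hF : IsPrimitive f F) {p : ℕ} [NeZero p]
    (x : OnePoint (ZMod p)) :
    IsPrimitive (f ∣[(2 : ℤ)] heckeRep p x) (fun τ => F (heckeRep p x • τ)) := by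
  induction x using OnePoint.rec with
  | infty => exact isPrimitive_comp_heckeDiagMatrix hF (NeZero.ne p)
  | coe j => exact isPrimitive_comp_heckeMatrix hF (NeZero.ne p) j.val

variable [NeZero N]

/-- The periods of `∑ f ∣ αₓ` are the transfer of the periods of `f`. -/
theorem periodMap_eq_transferHom {ι : Type*} [Fintype ι] (R : HeckeReps (gamma0GL N) ι)
    (f g : CuspForm (Gamma0 N) 2)
    (hg : (⇑g : ℍ → ℂ) = ∑ x, (⇑f) ∣[(2 : ℤ)] R.rep x)
    (hR : ∀ {f F : ℍ → ℂ}, IsPrimitive f F → ∀ x,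
      IsPrimitive (f ∣[(2 : ℤ)] R.rep x) (fun τ => F (R.rep x • τ))) :
    periodMap N g = R.transferHom (periodMap N f) := by
  set F := prim N f
  have hG : IsPrimitive (⇑g) (fun τ => ∑ x, F (R.rep x • τ)) := by
    intro τ
    have h := HasDerivAt.sum (u := Finset.univ)
      (fun x _ => hR (isPrimitive_prim N f) x τ)
    rw [hg, Finset.sum_apply]
    refine h.congr_of_eventuallyEq (Filter.Eventually.of_forall fun z => ?_)
    simp [F]
  refine AddMonoidHom.ext fun γ => ?_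
  obtain ⟨γ, rfl⟩ := Additive.ofMul.surjective γ
  rw [periodMap_apply_eq' N hG γ UpperHalfPlane.I, HeckeReps.transferHom_apply]
  set z := UpperHalfPlane.I
  have key : ∀ x, R.rep x • ((γ : SL(2, ℤ)) • z)
      = ((R.cocyc γ x : Gamma0 N) : SL(2, ℤ)) • (R.rep (R.perm γ x) • z) := by
    intro x
    show R.rep x • (gamma0GL N γ • z) = gamma0GL N (R.cocyc γ x) • (R.rep (R.perm γ x) • z)
    rw [← mul_smul, R.rep_mul, mul_smul]
  have hper : ∀ x, periodMap N f (Additive.ofMul (R.cocyc γ x))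
      = F (R.rep x • ((γ : SL(2, ℤ)) • z)) - F (R.rep (R.perm γ x) • z) := fun x => by
    rw [key]; exact periodMap_apply_eq N f _ _
  simp only [hper, Finset.sum_sub_distrib]
  congr 1
  exact (Equiv.sum_comp (R.permEquiv γ) (fun x => F (R.rep x • z))).symm

/-- `periodMap ∘ T_p = T_p ∘ periodMap`. -/
theorem periodMap_heckeTLin {p : ℕ} (hp : p.Prime) (hpN : ¬ p ∣ N) (f : CuspForm (Gamma0 N) 2) :
    periodMap N (CuspForm.heckeTLin 2 hp hpN f) = heckeHom ℂ N p (periodMap N f) := by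
  haveI := Fact.mk hp
  haveI : NeZero p := ⟨hp.ne_zero⟩
  rw [heckeHom_of_not_dvd ℂ hp hpN]
  refine periodMap_eq_transferHom (repsT hpN) f _ ?_ (fun hF x => isPrimitive_comp_heckeRep hF x)
  rw [CuspForm.coe_heckeTLin_apply]
  exact heckeT_eq_sum_onePoint 2 ⇑f

/-- `periodMap ∘ U_p = U_p ∘ periodMap`. -/
theorem periodMap_heckeULin {p : ℕ} (hpN : p ∣ N) (f : CuspForm (Gamma0 N) 2) :
    periodMap N (CuspForm.heckeULin 2 hpN f) = heckeHom ℂ N p (periodMap N f) := by
  haveI : NeZero p := ⟨fun h => NeZero.ne N (by simpa [h] using hpN)⟩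
  rw [heckeHom_of_dvd ℂ hpN]
  refine periodMap_eq_transferHom (repsU hpN) f _ ?_
    (fun hF x => isPrimitive_comp_heckeMatrix hF (NeZero.ne p) x.val)
  rw [CuspForm.coe_heckeULin_apply]
  exact heckeU_eq_sum_zmod 2 ⇑f

theorem periodHomPair_of_commute {T : CuspForm (Gamma0 N) 2 → CuspForm (Gamma0 N) 2} {p : ℕ}
    (hT : ∀ f, periodMap N (T f) = heckeHom ℂ N p (periodMap N f))
    (f g : CuspForm (Gamma0 N) 2) :
    periodHomPair N (T f, T g) = heckeHom ℂ N p (periodHomPair N (f, g)) := by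
  simp only [periodHomPair_apply, map_add, map_sub, hT, heckeHom_charInvolution]

/-- `periodHomPair ∘ (T_p × T_p) = T_p ∘ periodHomPair`. -/
theorem periodHomPair_heckeTLin {p : ℕ} (hp : p.Prime) (hpN : ¬ p ∣ N)
    (f g : CuspForm (Gamma0 N) 2) :
    periodHomPair N (CuspForm.heckeTLin 2 hp hpN f, CuspForm.heckeTLin 2 hp hpN g)
      = heckeHom ℂ N p (periodHomPair N (f, g)) :=
  periodHomPair_of_commute (periodMap_heckeTLin hp hpN) f g

/-- `periodHomPair ∘ (U_p × U_p) = U_p ∘ periodHomPair`. -/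
theorem periodHomPair_heckeULin {p : ℕ} (hpN : p ∣ N) (f g : CuspForm (Gamma0 N) 2) :
    periodHomPair N (CuspForm.heckeULin 2 hpN f, CuspForm.heckeULin 2 hpN g)
      = heckeHom ℂ N p (periodHomPair N (f, g)) :=
  periodHomPair_of_commute (periodMap_heckeULin hpN) f g

end FLTA.Periods

end
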