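import Mathlib.GroupTheory.Schreier
import Mathlib.GroupTheory.Abelianization.Defs
import Mathlib.LinearAlgebra.Matrix.FixedDetMatrices
import Mathlib.Algebra.Module.Torsion.Free
import Mathlib.Algebra.Module.Torsion.Basic
import Mathlib.LinearAlgebra.FreeModule.PID
import Mathlib.LinearAlgebra.FreeModule.Finite.Basic
import Mathlib.NumberTheory.ModularForms.CongruenceSubgroups
import Fermat.Prelude.Def_ModularCurve_PeriodMap

/-!
# The parabolic lattice of a finite index subgroup of `SL(2,ℤ)`

`parQuot Γ` is the maximal torsion-free quotient of `Γ^ab` killing all parabolic elements, so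
that parabolic homomorphisms with values in a torsion-free group `A` are `parQuot Γ →+ A`.
-/

set_option autoImplicit false

noncomputable section

open scoped MatrixGroups
open ModularCurve.Period

namespace FLTA.Periods

variable (Γ : Subgroup SL(2, ℤ))

/-- The `ℤ`-span of the parabolic classes in the abelianisation. -/
def parSubmodule : Submodule ℤ (Additive (Abelianization Γ)) :=
  Submodule.span ℤ
    ((fun γ : Γ => Additive.ofMul (Abelianization.of γ)) ''
      {γ : Γ | ((γ : SL(2, ℤ)) : Matrix (Fin 2) (Fin 2) ℤ).trace ^ 2 = 4})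

/-- `Γ^ab` modulo parabolic classes and torsion. -/
abbrev parQuot : Type :=
  (Additive (Abelianization Γ) ⧸ parSubmodule Γ) ⧸
    Submodule.torsion ℤ (Additive (Abelianization Γ) ⧸ parSubmodule Γ)

/-- The canonical map to `parQuot Γ`. -/
def parMk : Additive Γ →+ parQuot Γ :=
  ((Submodule.torsion ℤ (Additive (Abelianization Γ) ⧸ parSubmodule Γ)).mkQ.toAddMonoidHom.comp
    (parSubmodule Γ).mkQ.toAddMonoidHom).comp (MonoidHom.toAdditive Abelianization.of)

theorem parMk_surjective : Function.Surjective (parMk Γ) := by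
  intro x
  obtain ⟨y, rfl⟩ := Submodule.mkQ_surjective _ x
  obtain ⟨z, rfl⟩ := Submodule.mkQ_surjective _ y
  obtain ⟨g, hg⟩ := QuotientGroup.mk_surjective (Additive.toMul z)
  exact ⟨Additive.ofMul g, by
    have hz : Additive.ofMul (Abelianization.of g) = z := by
      apply Additive.toMul.injective; exact hg
    rw [← hz]; rfl⟩

theorem parMk_isParabolicHom : IsParabolicHom Γ (parMk Γ) := by
  intro γ hγ
  have h : (parSubmodule Γ).mkQ (Additive.ofMul (Abelianization.of γ)) = 0 := by
    rw [Submodule.mkQ_apply, Submodule.Quotient.mk_eq_zero]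
    exact Submodule.subset_span ⟨γ, hγ, rfl⟩
  show Submodule.mkQ _ ((parSubmodule Γ).mkQ (Additive.ofMul (Abelianization.of γ))) = 0
  rw [h, map_zero]

theorem parQuot_hom_ext {A : Type*} [AddCommGroup A] {u v : parQuot Γ →+ A}
    (h : u.comp (parMk Γ) = v.comp (parMk Γ)) : u = v := by
  ext x
  obtain ⟨g, rfl⟩ := parMk_surjective Γ x
  exact DFunLike.congr_fun h g

instance instTorsionFreeParQuot : IsAddTorsionFree (parQuot Γ) := by
  rw [← Module.isTorsionFree_int_iff_isAddTorsionFree]
  infer_instance

variable {Γ} {A : Type*} [AddCommGroup A]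

theorem isParabolicHom_comp_parMk (u : parQuot Γ →+ A) :
    IsParabolicHom Γ (u.comp (parMk Γ)) := fun γ hγ => by
  rw [AddMonoidHom.comp_apply, parMk_isParabolicHom Γ γ hγ, map_zero]

theorem exists_parQuot_factor [IsAddTorsionFree A] {φ : Additive Γ →+ A}
    (hφ : IsParabolicHom Γ φ) : ∃ u : parQuot Γ →+ A, u.comp (parMk Γ) = φ := by
  let f₀ : Additive (Abelianization Γ) →+ A :=
    MonoidHom.toAdditiveLeft (Abelianization.lift (AddMonoidHom.toMultiplicativeRight φ))
  have hf₀ : ∀ g : Γ, f₀ (Additive.ofMul (Abelianization.of g)) = φ (Additive.ofMul g) :=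
    fun g => rfl
  have h1 : parSubmodule Γ ≤ LinearMap.ker f₀.toIntLinearMap := by
    rw [parSubmodule, Submodule.span_le]
    rintro _ ⟨g, hg, rfl⟩
    rw [SetLike.mem_coe, LinearMap.mem_ker]
    exact (hf₀ g).trans (hφ g hg)
  let f₁ := (parSubmodule Γ).liftQ f₀.toIntLinearMap h1
  have h2 : Submodule.torsion ℤ (Additive (Abelianization Γ) ⧸ parSubmodule Γ)
      ≤ LinearMap.ker f₁ := by
    intro x hx
    obtain ⟨⟨a, ha⟩, hax⟩ := hx
    rw [LinearMap.mem_ker]
    have h3 : a • f₁ x = 0 := by
      rw [← map_smul]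
      exact (congrArg f₁ hax).trans (map_zero f₁)
    exact (smul_eq_zero.mp h3).resolve_left (nonZeroDivisors.ne_zero ha)
  refine ⟨((Submodule.torsion ℤ _).liftQ f₁ h2).toAddMonoidHom, ?_⟩
  ext g
  exact hf₀ (Additive.toMul g)

variable (Γ A) in
/-- Parabolic homomorphisms into a torsion-free group = homomorphisms on `parQuot Γ`. -/
def parEquiv (R : Type*) [Semiring R] [Module R A] [IsAddTorsionFree A] :
    (parQuot Γ →+ A) ≃ₗ[R] parabolicHoms R Γ A :=
  LinearEquiv.ofBijective
    { toFun := fun u => (⟨u.comp (parMk Γ), mem_parabolicHoms_iff.mpr (isParabolicHom_comp_parMk u)⟩ : parabolicHoms R Γ A)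
      map_add' := fun u v => Subtype.ext rfl
      map_smul' := fun c u => Subtype.ext rfl }
    ⟨fun u v huv => parQuot_hom_ext Γ (congrArg Subtype.val huv),
      fun φ => (exists_parQuot_factor φ.2).imp fun u hu => Subtype.ext hu⟩

@[simp]
theorem parEquiv_apply (R : Type*) [Semiring R] [Module R A] [IsAddTorsionFree A]
    (u : parQuot Γ →+ A) :
    (parEquiv Γ A R u : Additive Γ →+ A) = u.comp (parMk Γ) := rfl

variable (Γ)

theorem group_fg_of_finiteIndex [Γ.FiniteIndex] : Group.FG Γ := by
  have : Group.FG SL(2, ℤ) :=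
    Group.fg_iff.mpr ⟨{ModularGroup.S, ModularGroup.T}, SpecialLinearGroup.SL2Z_generators,
      Set.toFinite _⟩
  infer_instance

instance instFiniteParQuot [Γ.FiniteIndex] : Module.Finite ℤ (parQuot Γ) := by
  have := group_fg_of_finiteIndex Γ
  have : Group.FG (Abelianization Γ) :=
    Group.fg_of_surjective (f := Abelianization.of (G := Γ)) QuotientGroup.mk_surjective
  have : Module.Finite ℤ (Additive (Abelianization Γ)) :=
    Module.Finite.iff_addGroup_fg.mpr inferInstance
  infer_instance

instance instFreeParQuot [Γ.FiniteIndex] : Module.Free ℤ (parQuot Γ) :=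
  Module.free_of_finite_type_torsion_free'

end FLTA.Periods
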