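import Fermat.Prelude.Def_ModularCurve_PeriodHomPair
import Fermat.Agent.Periods.Lattice

/-!
# The involution of the parabolic lattice
-/

set_option autoImplicit false

noncomputable section

open CongruenceSubgroup ModularCurve.Period
open scoped MatrixGroups

namespace FLTA.Periods

variable (N : ℕ)

theorem exists_parInvol :
    ∃ J : parQuot (Gamma0 N) →+ parQuot (Gamma0 N),
      J.comp (parMk (Gamma0 N)) = charInvolution N ℤ _ (parMk (Gamma0 N)) :=
  exists_parQuot_factor (mem_parabolicHoms_iff.mp
    (charInvolution_mem_parabolicHoms N ℤ _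
      (mem_parabolicHoms_iff.mpr (parMk_isParabolicHom (Gamma0 N)))))

/-- Conjugation by `diag(-1,1)` on `parQuot (Gamma0 N)`. -/
def parInvol : parQuot (Gamma0 N) →+ parQuot (Gamma0 N) :=
  (exists_parInvol N).choose

theorem parInvol_parMk (γ : Gamma0 N) :
    parInvol N (parMk (Gamma0 N) (Additive.ofMul γ))
      = parMk (Gamma0 N) (Additive.ofMul (jConjGamma0 N γ)) :=
  DFunLike.congr_fun (exists_parInvol N).choose_spec (Additive.ofMul γ)

theorem parInvol_parInvol (x : parQuot (Gamma0 N)) : parInvol N (parInvol N x) = x := by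
  obtain ⟨g, rfl⟩ := parMk_surjective (Gamma0 N) x
  rw [← ofMul_toMul g, parInvol_parMk, parInvol_parMk, jConjGamma0_jConjGamma0]

theorem charInvolution_comp_parMk {R A : Type*} [Semiring R] [AddCommGroup A] [Module R A]
    (u : parQuot (Gamma0 N) →+ A) :
    charInvolution N R A (u.comp (parMk (Gamma0 N)))
      = (u.comp (parInvol N)).comp (parMk (Gamma0 N)) := by
  ext g
  exact (congrArg u (parInvol_parMk N (Additive.toMul g))).symm

end FLTA.Periods
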