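import Mathlib.LinearAlgebra.LinearIndependent.BaseChange
import Fermat.Agent.Periods.Invol
import Fermat.Agent.Periods.Duality
import Fermat.Agent.Periods.EichlerShimura
import Fermat.Agent.Periods.HeckePeriods

/-!
# The Hecke algebra on the parabolic lattice

`heckeQuot N : fullHecke N →+* Module.End ℤ (parQuot (Gamma0 N))`, characterised by compatibility
with the period pair isomorphism `pairQuot`.
-/

set_option autoImplicit false

noncomputable section

open CongruenceSubgroup ModularCurve ModularCurve.Period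
open scoped MatrixGroups

namespace FLTA.Periods

variable (N : ℕ) [NeZero N]

theorem exists_pairQuot :
    ∃ e : (CF2 N × CF2 N) ≃ₗ[ℂ] (parQuot (Gamma0 N) →+ ℂ),
      ∀ x, (e x).comp (parMk (Gamma0 N)) = periodHomPair N x := by
  refine ⟨(periodPairEquiv N).trans (parEquiv (Gamma0 N) ℂ ℂ).symm, fun x => ?_⟩
  rw [← parEquiv_apply ℂ, LinearEquiv.trans_apply, LinearEquiv.apply_symm_apply]
  rfl

/-- The Eichler–Shimura isomorphism on `parQuot`. -/
def pairQuot : (CF2 N × CF2 N) ≃ₗ[ℂ] (parQuot (Gamma0 N) →+ ℂ) :=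
  (exists_pairQuot N).choose

theorem pairQuot_comp_parMk (x : CF2 N × CF2 N) :
    (pairQuot N x).comp (parMk (Gamma0 N)) = periodHomPair N x :=
  (exists_pairQuot N).choose_spec x

theorem periodHomPair_neg_snd (f g : CF2 N) :
    periodHomPair N (f, -g) = charInvolution N ℂ ℂ (periodHomPair N (f, g)) := by
  unfold periodHomPair
  split_ifs with h
  · simp only [LinearMap.coprod_apply, LinearMap.comp_apply, LinearMap.add_apply,
      LinearMap.sub_apply, LinearMap.id_apply, map_neg, map_add, map_sub,
      charInvolution_charInvolution]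
    abel
  · simp

theorem pairQuot_neg_snd (f g : CF2 N) :
    pairQuot N (f, -g) = (pairQuot N (f, g)).comp (parInvol N) := by
  apply parQuot_hom_ext
  rw [pairQuot_comp_parMk, periodHomPair_neg_snd, ← pairQuot_comp_parMk, charInvolution_comp_parMk]

/-- `M` is the transpose of `t` on the parabolic lattice. -/
def IsTranspose (t : Module.End ℂ (CF2 N)) (M : Module.End ℤ (parQuot (Gamma0 N))) : Prop :=
  ∀ f g : CF2 N, pairQuot N (t f, t g) = (pairQuot N (f, g)).comp M.toAddMonoidHom

theorem exists_isTranspose_of_heckeHom {t : Module.End ℂ (CF2 N)} {p : ℕ}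
    (h : ∀ f g : CF2 N, periodHomPair N (t f, t g) = heckeHom ℂ N p (periodHomPair N (f, g))) :
    ∃ M, IsTranspose N t M := by
  obtain ⟨M, hM⟩ := exists_parQuot_factor
    (heckeHom_isParabolicHom ℤ p (parMk_isParabolicHom (Gamma0 N)))
  refine ⟨M.toIntLinearMap, fun f g => parQuot_hom_ext (Gamma0 N) ?_⟩
  rw [pairQuot_comp_parMk, h, ← pairQuot_comp_parMk, heckeHom_eq_int, heckeHom_comp, ← hM]
  rfl

theorem exists_isTranspose_of_mem_generators {t : Module.End ℂ (CF2 N)}
    (ht : t ∈ CuspForm.heckeGenerators N 2 ∅) : ∃ M, IsTranspose N t M := by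
  rcases ht with ⟨ℓ, hℓ, hℓN, -, rfl⟩ | ⟨q, hqN, hq, -, rfl⟩
  · exact exists_isTranspose_of_heckeHom N (periodHomPair_heckeTLin hℓ hℓN)
  · exact exists_isTranspose_of_heckeHom N (periodHomPair_heckeULin hqN)

variable {N}

theorem eq_zero_of_forall_pairQuot_eq_zero {x : parQuot (Gamma0 N)}
    (h : ∀ p, pairQuot N p x = 0) : x = 0 := by
  let b := Module.Free.chooseBasis ℤ (parQuot (Gamma0 N))
  refine b.ext_elem fun i => ?_
  obtain ⟨p, hp⟩ := (pairQuot N).surjective
    ((Int.castAddHom ℂ).comp (b.coord i).toAddMonoidHom)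
  have h' := h p
  rw [hp] at h'
  simpa using h'

theorem IsTranspose.unique {t : Module.End ℂ (CF2 N)}
    {M M' : Module.End ℤ (parQuot (Gamma0 N))}
    (h : IsTranspose N t M) (h' : IsTranspose N t M') : M = M' := by
  refine LinearMap.ext fun x => sub_eq_zero.mp (eq_zero_of_forall_pairQuot_eq_zero fun p => ?_)
  rw [map_sub, sub_eq_zero]
  exact DFunLike.congr_fun ((h p.1 p.2).symm.trans (h' p.1 p.2)) x

theorem IsTranspose.mul {t t' : Module.End ℂ (CF2 N)}
    {M M' : Module.End ℤ (parQuot (Gamma0 N))}
    (h : IsTranspose N t M) (h' : IsTranspose N t' M') : IsTranspose N (t * t') (M' * M) := by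
  intro f g
  rw [Module.End.mul_apply, Module.End.mul_apply, h, h']
  rfl

theorem IsTranspose.add {t t' : Module.End ℂ (CF2 N)}
    {M M' : Module.End ℤ (parQuot (Gamma0 N))}
    (h : IsTranspose N t M) (h' : IsTranspose N t' M') : IsTranspose N (t + t') (M + M') := by
  intro f g
  rw [LinearMap.add_apply, LinearMap.add_apply, ← Prod.mk_add_mk, map_add, h, h']
  ext x
  simp [map_add]

theorem isTranspose_intCast (m : ℤ) :
    IsTranspose N (m : Module.End ℂ (CF2 N)) (m : Module.End ℤ (parQuot (Gamma0 N))) := by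
  intro f g
  rw [Module.End.intCast_apply, Module.End.intCast_apply, ← Prod.smul_mk, map_zsmul]
  ext x
  simp [map_zsmul]

theorem exists_isTranspose (t : fullHecke N) :
    ∃ M, IsTranspose N (t : Module.End ℂ (CF2 N)) M := by
  obtain ⟨t, ht⟩ := t
  induction ht using Algebra.adjoin_induction with
  | mem x hx => exact exists_isTranspose_of_mem_generators N hx
  | algebraMap m => exact ⟨_, by simpa using isTranspose_intCast (N := N) m⟩
  | add x y _ _ hx hy => exact ⟨_, hx.choose_spec.add hy.choose_spec⟩
  | mul x y _ _ hx hy => exact ⟨_, hx.choose_spec.mul hy.choose_spec⟩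

variable (N)

/-- The Hecke algebra acting on the parabolic lattice. -/
def heckeQuot : fullHecke N →+* Module.End ℤ (parQuot (Gamma0 N)) where
  toFun t := (exists_isTranspose t).choose
  map_one' := (exists_isTranspose (1 : fullHecke N)).choose_spec.unique
    (by simpa using isTranspose_intCast (N := N) 1)
  map_mul' t t' := (exists_isTranspose (t * t')).choose_spec.unique (by
    have h := (exists_isTranspose t').choose_spec.mul (exists_isTranspose t).choose_spec
    rw [mul_comm t t']
    exact h)
  map_zero' := (exists_isTranspose (0 : fullHecke N)).choose_spec.unique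
    (by simpa using isTranspose_intCast (N := N) 0)
  map_add' t t' := (exists_isTranspose (t + t')).choose_spec.unique
    ((exists_isTranspose t).choose_spec.add (exists_isTranspose t').choose_spec)

theorem heckeQuot_isTranspose (t : fullHecke N) :
    IsTranspose N (t : Module.End ℂ (CF2 N)) (heckeQuot N t) :=
  (exists_isTranspose t).choose_spec

theorem pairQuot_hecke (t : fullHecke N) (f g : CF2 N) :
    pairQuot N ((t : Module.End ℂ (CF2 N)) f, (t : Module.End ℂ (CF2 N)) g)
      = (pairQuot N (f, g)).comp (heckeQuot N t).toAddMonoidHom :=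
  heckeQuot_isTranspose N t f g

theorem heckeQuot_injective : Function.Injective (heckeQuot N) := by
  rw [injective_iff_map_eq_zero]
  intro t ht
  refine Subtype.ext (LinearMap.ext fun f => ?_)
  have h := pairQuot_hecke N t f 0
  rw [ht, map_zero (t : Module.End ℂ (CF2 N))] at h
  have h0 : pairQuot N ((t : Module.End ℂ (CF2 N)) f, 0) = 0 := by
    rw [h]; ext x; simp
  exact congrArg Prod.fst ((LinearEquiv.map_eq_zero_iff _).mp h0)

theorem parInvol_heckeQuot (t : fullHecke N) (x : parQuot (Gamma0 N)) :
    parInvol N (heckeQuot N t x) = heckeQuot N t (parInvol N x) := by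
  refine sub_eq_zero.mp (eq_zero_of_forall_pairQuot_eq_zero fun p => ?_)
  obtain ⟨f, g⟩ := p
  rw [map_sub, sub_eq_zero]
  calc pairQuot N (f, g) (parInvol N (heckeQuot N t x))
      = pairQuot N (f, -g) (heckeQuot N t x) := by rw [pairQuot_neg_snd]; rfl
    _ = pairQuot N ((t : Module.End ℂ (CF2 N)) f, (t : Module.End ℂ (CF2 N)) (-g)) x := by
        rw [pairQuot_hecke]; rfl
    _ = pairQuot N ((t : Module.End ℂ (CF2 N)) f, (t : Module.End ℂ (CF2 N)) g) (parInvol N x) := by
        rw [map_neg, pairQuot_neg_snd]; rfl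
    _ = pairQuot N (f, g) (heckeQuot N t (parInvol N x)) := by rw [pairQuot_hecke]; rfl

instance instFiniteFullHecke : Module.Finite ℤ (fullHecke N) :=
  Module.Finite.of_injective (heckeQuot N).toIntAlgHom.toLinearMap (heckeQuot_injective N)

instance instFreeFullHecke : Module.Free ℤ (fullHecke N) :=
  Module.free_of_finite_type_torsion_free'

theorem linearIndependent_coe_of_linearIndependent {ι : Type*} {v : ι → fullHecke N}
    (hv : LinearIndependent ℤ v) :
    LinearIndependent ℂ (fun i => (v i : Module.End ℂ (CF2 N))) := by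
  let b := Module.Free.chooseBasis ℤ (parQuot (Gamma0 N))
  let mat : fullHecke N →ₗ[ℤ]
      (Module.Free.ChooseBasisIndex ℤ (parQuot (Gamma0 N))
        × Module.Free.ChooseBasisIndex ℤ (parQuot (Gamma0 N)) → ℤ) :=
    { toFun := fun t ij => b.coord ij.1 (heckeQuot N t (b ij.2))
      map_add' := fun s t => by ext ij; simp
      map_smul' := fun c t => by ext ij; simp }
  have hmat : LinearMap.ker mat = ⊥ := by
    rw [LinearMap.ker_eq_bot, injective_iff_map_eq_zero]
    intro t ht
    apply heckeQuot_injective N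
    rw [map_zero]
    exact b.ext fun j => b.ext_elem fun i => by simpa [mat] using congrFun ht (i, j)
  have hC := linearIndependent_algebraMap_comp_iff (S := ℂ).mpr (hv.map' mat hmat)
  rw [linearIndependent_iff'] at hC ⊢
  intro s c hc i hi
  refine hC s c (funext fun ij => ?_) i hi
  obtain ⟨p, hp⟩ := (pairQuot N).surjective
    ((Int.castAddHom ℂ).comp (b.coord ij.1).toAddMonoidHom)
  have key : ∀ k, pairQuot N (((v k : Module.End ℂ (CF2 N)) p.1), ((v k : Module.End ℂ (CF2 N)) p.2))
      (b ij.2) = (algebraMap ℤ ℂ ∘ mat (v k)) ij := fun k => by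
    rw [pairQuot_hecke, Prod.mk.eta, hp]; rfl
  have h0 : ∑ k ∈ s, c k • (((v k : Module.End ℂ (CF2 N)) p.1),
      ((v k : Module.End ℂ (CF2 N)) p.2)) = 0 := by
    ext : 1
    · simpa [Prod.fst_sum] using LinearMap.congr_fun hc p.1
    · simpa [Prod.snd_sum] using LinearMap.congr_fun hc p.2
  have h := DFunLike.congr_fun (congrArg (pairQuot N) h0) (b ij.2)
  rw [map_sum, AddMonoidHom.finsetSum_apply] at h
  simpa only [map_smul, AddMonoidHom.smul_apply, smul_eq_mul, key, map_zero,
    AddMonoidHom.zero_apply, Finset.sum_apply, Pi.smul_apply, Pi.zero_apply,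
    Function.comp_apply] using h

end FLTA.Periods
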