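import Fermat.Prelude.Def_CuspForm_IntegralStructure
import Fermat.Prelude.Def_CuspForm_IntegralLattice
import Fermat.Agent.Periods.HeckeQuot

/-!
# Integral structure on weight-2 cusp forms
-/

set_option autoImplicit false

noncomputable section

open ModularFormClass

namespace FLTA.Periods

variable (N : ℕ) [NeZero N]

/-- Index type of a `ℤ`-basis of the Hecke algebra. -/
abbrev heckeIndex : Type := Module.Free.ChooseBasisIndex ℤ (fullHecke N)

/-- A `ℤ`-basis of the Hecke algebra. -/
def heckeBasis : Module.Basis (heckeIndex N) ℤ (fullHecke N) :=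
  Module.Free.chooseBasis ℤ (fullHecke N)

theorem coe_mem_heckeSpan (t : fullHecke N) : (t : Module.End ℂ (CF2 N)) ∈ heckeSpan N :=
  Submodule.subset_span t.2

theorem span_range_heckeBasis :
    Submodule.span ℂ (Set.range fun i => (heckeBasis N i : Module.End ℂ (CF2 N))) = heckeSpan N := by
  refine le_antisymm (Submodule.span_le.mpr ?_) (Submodule.span_le.mpr fun t ht => ?_)
  · rintro _ ⟨i, rfl⟩
    exact coe_mem_heckeSpan N _
  · have h := congrArg Subtype.val ((heckeBasis N).sum_repr ⟨t, ht⟩)
    change _ = t at h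
    rw [SetLike.mem_coe, ← h, AddSubmonoidClass.coe_finsetSum]
    refine Submodule.sum_mem _ fun i _ => ?_
    rw [Subalgebra.coe_smul, ← Int.cast_smul_eq_zsmul ℂ]
    exact Submodule.smul_mem _ _ (Submodule.subset_span ⟨i, rfl⟩)

/-- A `ℤ`-basis of the Hecke algebra as a `ℂ`-basis of its span. -/
def heckeSpanBasis : Module.Basis (heckeIndex N) ℂ (heckeSpan N) :=
  (Module.Basis.span (linearIndependent_coe_of_linearIndependent N
    (heckeBasis N).linearIndependent)).map (LinearEquiv.ofEq _ _ (span_range_heckeBasis N))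

theorem heckeSpanBasis_apply (i : heckeIndex N) :
    (heckeSpanBasis N i : Module.End ℂ (CF2 N)) = heckeBasis N i := by
  simp [heckeSpanBasis, Module.Basis.span_apply]

/-- The basis of cusp forms dual to `heckeBasis`. -/
def dualForms : Module.Basis (heckeIndex N) ℂ (CF2 N) :=
  (heckeSpanBasis N).dualBasis.map (heckeDualEquiv N).symm

theorem qCoeff_one_heckeBasis_dualForms (i j : heckeIndex N) :
    qCoeff ((heckeBasis N i : Module.End ℂ (CF2 N)) (dualForms N j)) 1
      = if i = j then 1 else 0 := by
  rw [← heckeSpanBasis_apply, ← heckePairing_apply]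
  have : heckePairing N (dualForms N j) = (heckeSpanBasis N).dualBasis j :=
    (heckeDualEquiv N).apply_symm_apply _
  rw [this, Module.Basis.dualBasis_apply_self, eq_comm]

theorem qCoeff_one_hecke_dualForms (t : fullHecke N) (j : heckeIndex N) :
    qCoeff ((t : Module.End ℂ (CF2 N)) (dualForms N j)) 1 = ((heckeBasis N).repr t j : ℂ) := by
  conv_lhs => rw [← (heckeBasis N).sum_repr t]
  rw [AddSubmonoidClass.coe_finsetSum, LinearMap.sum_apply, ← coeffLin_apply, map_sum,
    Finset.sum_eq_single j]
  · rw [Subalgebra.coe_smul, LinearMap.smul_apply, map_zsmul, coeffLin_apply,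
      qCoeff_one_heckeBasis_dualForms, if_pos rfl, zsmul_one]
  · intro b _ hb
    rw [Subalgebra.coe_smul, LinearMap.smul_apply, map_zsmul, coeffLin_apply,
      qCoeff_one_heckeBasis_dualForms, if_neg hb, zsmul_zero]
  · exact fun h => absurd (Finset.mem_univ j) h

theorem qCoeff_dualForms (n : ℕ) (j : heckeIndex N) :
    qCoeff (dualForms N j) n = ((heckeBasis N).repr (heckeOp N n) j : ℂ) := by
  rw [← qCoeff_one_hecke_dualForms, qCoeff_one_heckeOp]

theorem hasIntegralStructure_two : CuspForm.HasIntegralStructure N 2 := by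
  rw [CuspForm.HasIntegralStructure, eq_top_iff, ← (dualForms N).span_eq]
  refine Submodule.span_mono ?_
  rintro _ ⟨j, rfl⟩
  exact Submodule.subset_span fun n => ⟨_, qCoeff_dualForms N n j⟩

theorem hasIntegralBasis : CuspForm.HasIntegralBasis N := by
  rw [CuspForm.HasIntegralBasis, eq_top_iff, ← (dualForms N).span_eq]
  refine Submodule.span_mono ?_
  rintro _ ⟨j, rfl⟩ n
  rw [qCoeff_dualForms]
  exact intCast_mem _ _

theorem finrank_fullHecke : Module.finrank ℤ (fullHecke N) = Module.finrank ℂ (CF2 N) := by
  rw [Module.finrank_eq_card_basis (heckeBasis N), Module.finrank_eq_card_basis (dualForms N)]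

end FLTA.Periods
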