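import Fermat.Agent.Periods.EigenDescent
import Fermat.Agent.Periods.HeckeQuot

/-!
# Eigenspaces of the Hecke algebra in parabolic homomorphisms

For a field `K` of characteristic zero and a character `χ` of the full Hecke algebra of level `N`,
the `χ`-eigenspace in `parQuot (Gamma0 N) →+ K` has dimension `2`, and each eigen-line of the
involution has dimension `1`.
-/

set_option autoImplicit false

noncomputable section

open CongruenceSubgroup ModularCurve ModularCurve.Period ModularFormClass
open scoped MatrixGroups Matrix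

namespace FLTA.Periods

section LinearSys

variable {P : Type} [AddCommGroup P] {σ : Type} {K : Type*} [Field K]

/-- Common eigenspace of the transposes of the endomorphisms `M s`. -/
def sysEigen (M : σ → Module.End ℤ P) (c : σ → K) : Submodule K (P →+ K) where
  carrier := {u | ∀ s x, u (M s x) = c s * u x}
  add_mem' {u v} hu hv s x := by simp [hu s x, hv s x, mul_add]
  zero_mem' s x := by simp
  smul_mem' a u hu s x := by simp [hu s x, mul_left_comm]

theorem mem_sysEigen_iff (M : σ → Module.End ℤ P) (c : σ → K) (u : P →+ K) :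
    u ∈ sysEigen M c ↔ ∀ s x, u (M s x) = c s * u x :=
  Iff.rfl

variable {ι : Type} [Fintype ι] [DecidableEq ι]

/-- The matrix of the linear system defining `sysEigen`. -/
def sysMatrix (b : Module.Basis ι ℤ P) (M : σ → Module.End ℤ P) (c : σ → K) :
    Matrix (σ × ι) ι K :=
  fun sj i => ((b.coord i (M sj.1 (b sj.2)) : ℤ) : K) - if i = sj.2 then c sj.1 else 0

omit [DecidableEq ι] in
theorem addHom_apply_eq_sum (b : Module.Basis ι ℤ P) (u : P →+ K) (x : P) :
    u x = ∑ i, ((b.coord i x : ℤ) : K) * u (b i) := by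
  conv_lhs => rw [← b.sum_repr x]
  rw [map_sum]
  exact Finset.sum_congr rfl fun i _ => by rw [map_zsmul, zsmul_eq_mul]; rfl

/-- Coordinates identify `sysEigen` with the kernel of its matrix. -/
def sysEigenEquiv (b : Module.Basis ι ℤ P) (M : σ → Module.End ℤ P) (c : σ → K) :
    sysEigen M c ≃ₗ[K] LinearMap.ker (sysMatrix b M c).mulVecLin := by
  have key : ∀ (u : P →+ K) (s : σ) (j : ι),
      ((sysMatrix b M c).mulVecLin fun i => u (b i)) (s, j)
        = u (M s (b j)) - c s * u (b j) := by
    intro u s j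
    rw [addHom_apply_eq_sum b u (M s (b j)), Matrix.mulVecLin_apply]
    simp [Matrix.mulVec, dotProduct, sysMatrix, sub_mul, Finset.sum_sub_distrib, ite_mul]
  refine LinearEquiv.ofBijective
    { toFun := fun u => ⟨fun i => (u : P →+ K) (b i), by
        rw [LinearMap.mem_ker]
        funext sj
        obtain ⟨s, j⟩ := sj
        rw [key, u.2 s (b j), sub_self, Pi.zero_apply]⟩
      map_add' := fun u v => rfl
      map_smul' := fun a u => rfl } ⟨?_, ?_⟩
  · intro u v huv
    refine Subtype.ext (AddMonoidHom.ext fun x => ?_)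
    rw [addHom_apply_eq_sum b, addHom_apply_eq_sum b (v : P →+ K) x]
    exact Finset.sum_congr rfl fun i _ =>
      congrArg _ (congrFun (congrArg Subtype.val huv) i)
  · rintro ⟨v, hv⟩
    let u : P →+ K := (b.constr ℤ v).toAddMonoidHom
    have hu : ∀ i, u (b i) = v i := fun i => b.constr_basis ℤ v i
    refine ⟨⟨u, fun s x => ?_⟩, Subtype.ext (funext hu)⟩
    have h : (u.toIntLinearMap ∘ₗ M s) = (AddMonoidHom.mulLeft (c s)).toIntLinearMap ∘ₗ u.toIntLinearMap := by
      refine b.ext fun j => ?_
      have h1 := key u s j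
      simp only [hu] at h1
      rw [LinearMap.mem_ker.mp hv, Pi.zero_apply] at h1
      simpa [sub_eq_zero, hu] using h1.symm
    exact LinearMap.congr_fun h x

/-- The dimension of `sysEigen` does not change under extension of the field of eigenvalues. -/
theorem finrank_sysEigen_map [Finite σ] {L : Type*} [Field L] (f : L →+* K) (b : Module.Basis ι ℤ P)
    (M : σ → Module.End ℤ P) (c : σ → L) :
    Module.finrank K (sysEigen M (fun s => f (c s))) = Module.finrank L (sysEigen M c) := by
  rw [(sysEigenEquiv b M _).finrank_eq, (sysEigenEquiv b M c).finrank_eq]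
  have h : sysMatrix b M (fun s => f (c s)) = (sysMatrix b M c).map f := by
    ext sj i
    simp [sysMatrix, apply_ite f]
  rw [h, finrank_ker_mulVecLin_map]

end LinearSys

variable (N : ℕ) [NeZero N]

/-- The eigenspace of `χ` in parabolic homomorphisms (on `parQuot`). -/
def parEigen {K : Type*} [Field K] (χ : fullHecke N → K) :
    Submodule K (parQuot (Gamma0 N) →+ K) :=
  sysEigen (fun t => heckeQuot N t) χ

/-- The Hecke operators together with the involution. -/
def heckeInvolEnd : fullHecke N ⊕ Unit → Module.End ℤ (parQuot (Gamma0 N)) :=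
  Sum.elim (fun t => heckeQuot N t) (fun _ => (parInvol N).toIntLinearMap)

/-- The part of `parEigen` on which the involution is `ε`. -/
def parEigenInvol {K : Type*} [Field K] (χ : fullHecke N → K) (ε : K) :
    Submodule K (parQuot (Gamma0 N) →+ K) :=
  sysEigen (heckeInvolEnd N) (Sum.elim χ fun _ => ε)

theorem mem_parEigen_iff {K : Type*} [Field K] (χ : fullHecke N → K)
    (u : parQuot (Gamma0 N) →+ K) :
    u ∈ parEigen N χ ↔ ∀ t x, u (heckeQuot N t x) = χ t * u x :=
  Iff.rfl

theorem mem_parEigenInvol_iff {K : Type*} [Field K] (χ : fullHecke N → K) (ε : K)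
    (u : parQuot (Gamma0 N) →+ K) :
    u ∈ parEigenInvol N χ ε ↔ u ∈ parEigen N χ ∧ ∀ x, u (parInvol N x) = ε * u x := by
  constructor
  · exact fun h => ⟨fun t x => h (Sum.inl t) x, fun x => h (Sum.inr ()) x⟩
  · rintro ⟨h1, h2⟩ (t | _) x
    exacts [h1 t x, h2 x]

/-- It suffices to impose the eigen-condition on a `ℤ`-basis of the Hecke algebra. -/
theorem parEigen_eq_sysEigen_basis {K : Type*} [Field K] {κ : Type}
    (s : Module.Basis κ ℤ (fullHecke N)) (χ : fullHecke N →+ K) :
    parEigen N χ = sysEigen (fun k => heckeQuot N (s k)) (fun k => χ (s k)) := by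
  refine le_antisymm (fun u hu k x => hu (s k) x) fun u hu t x => ?_
  have h : (fun t => u (heckeQuot N t x)) = fun t => χ t * u x := by
    let A : fullHecke N →+ K :=
      { toFun := fun t => u (heckeQuot N t x)
        map_zero' := by simp
        map_add' := fun t t' => by simp }
    let B : fullHecke N →+ K := (AddMonoidHom.mulRight (u x)).comp χ
    have hAB : A.toIntLinearMap = B.toIntLinearMap := s.ext fun k => hu k x
    exact funext fun t => LinearMap.congr_fun hAB t
  exact congrFun h t

theorem parEigenInvol_eq_sysEigen_basis {K : Type*} [Field K] {κ : Type}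
    (s : Module.Basis κ ℤ (fullHecke N)) (χ : fullHecke N →+ K) (ε : K) :
    parEigenInvol N χ ε = sysEigen (Sum.elim (fun k => heckeQuot N (s k))
      fun _ : Unit => (parInvol N).toIntLinearMap) (Sum.elim (fun k => χ (s k)) fun _ => ε) := by
  ext u
  rw [mem_parEigenInvol_iff, parEigen_eq_sysEigen_basis N s χ]
  constructor
  · rintro ⟨h1, h2⟩ (k | _) x
    exacts [h1 k x, h2 x]
  · exact fun h => ⟨fun k x => h (Sum.inl k) x, fun x => h (Sum.inr ()) x⟩

/-- The cusp forms with eigen-character `χ`. -/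
def formEigen (χ : fullHecke N →+* ℂ) : Submodule ℂ (CF2 N) where
  carrier := {f | ∀ t : fullHecke N, (t : Module.End ℂ (CF2 N)) f = χ t • f}
  add_mem' {f g} hf hg t := by rw [map_add, hf t, hg t, smul_add]
  zero_mem' t := by rw [map_zero, smul_zero]
  smul_mem' a f hf t := by rw [map_smul, hf t, smul_comm]

theorem qCoeff_of_mem_formEigen (χ : fullHecke N →+* ℂ) {f : CF2 N} (hf : f ∈ formEigen N χ)
    (n : ℕ) : qCoeff f n = χ (heckeOp N n) * qCoeff f 1 := by
  rw [← qCoeff_one_heckeOp N n f, hf, ← coeffLin_apply, map_smul, smul_eq_mul, coeffLin_apply]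

/-- Every character of the full Hecke algebra has an eigenform with `a₁ = 1`. -/
theorem exists_mem_formEigen_qCoeff_one (χ : fullHecke N →+* ℂ) :
    ∃ f ∈ formEigen N χ, qCoeff f 1 = 1 := by
  classical
  let b := Module.Free.chooseBasis ℤ (fullHecke N)
  have hli := linearIndependent_coe_of_linearIndependent N b.linearIndependent
  have hspan : Submodule.span ℂ (Set.range fun i => ((b i : fullHecke N) : Module.End ℂ (CF2 N)))
      = heckeSpan N := by
    refine le_antisymm (Submodule.span_mono fun _ ⟨i, hi⟩ => hi ▸ (b i).2)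
      (Submodule.span_le.mpr fun t ht => ?_)
    have hb : ((∑ i, b.repr ⟨t, ht⟩ i • b i : fullHecke N) : Module.End ℂ (CF2 N)) = t := by
      rw [b.sum_repr]
    rw [← hb, AddSubmonoidClass.coe_finsetSum]
    refine Submodule.sum_mem _ fun i _ => ?_
    rw [SetLike.val_smul, ← Int.cast_smul_eq_zsmul ℂ]
    exact Submodule.smul_mem _ _ (Submodule.subset_span ⟨i, rfl⟩)
  let B := (Module.Basis.span hli).map (LinearEquiv.ofEq _ _ hspan)
  have hB : ∀ i, (B i : Module.End ℂ (CF2 N)) = (b i : Module.End ℂ (CF2 N)) := fun i => by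
    simp [B, Module.Basis.span_apply]
  let φ : Module.Dual ℂ (heckeSpan N) := B.constr ℂ fun i => χ (b i)
  let f := (heckeDualEquiv N).symm φ
  have hval : ∀ t : fullHecke N, qCoeff ((t : Module.End ℂ (CF2 N)) f) 1 = χ t := by
    let A : fullHecke N →+ ℂ :=
      { toFun := fun t => coeffLin N 1 ((t : Module.End ℂ (CF2 N)) f)
        map_zero' := by rw [ZeroMemClass.coe_zero, LinearMap.zero_apply, map_zero]
        map_add' := fun s t => by
          show coeffLin N 1 _ = coeffLin N 1 _ + coeffLin N 1 _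
          rw [Subalgebra.coe_add, LinearMap.add_apply, map_add] }
    have hA : A.toIntLinearMap = χ.toAddMonoidHom.toIntLinearMap := by
      refine b.ext fun i => ?_
      have h := LinearMap.congr_fun ((heckeDualEquiv N).apply_symm_apply φ) (B i)
      show qCoeff (((b i : fullHecke N) : Module.End ℂ (CF2 N)) f) 1 = χ (b i)
      rw [← hB i]
      exact h.trans (B.constr_basis ℂ _ i)
    exact fun t => LinearMap.congr_fun hA t
  have h1 : qCoeff f 1 = 1 := by simpa using hval 1
  refine ⟨f, fun t => eq_of_qCoeff_eq fun n _ => ?_, h1⟩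
  have hl : qCoeff ((t : Module.End ℂ (CF2 N)) f) n = χ (heckeOp N n * t) := by
    rw [← hval, ← qCoeff_one_heckeOp N n ((t : Module.End ℂ (CF2 N)) f)]
    rfl
  rw [hl, map_mul, ← coeffLin_apply n (χ t • f), map_smul, smul_eq_mul, coeffLin_apply,
    ← qCoeff_one_heckeOp N n f, hval, mul_comm]

/-- Eigen-lines in cusp forms. -/
theorem finrank_formEigen (χ : fullHecke N →+* ℂ) :
    Module.finrank ℂ (formEigen N χ) = 1 := by
  obtain ⟨f, hf, hf1⟩ := exists_mem_formEigen_qCoeff_one N χ
  refine finrank_eq_one (⟨f, hf⟩ : formEigen N χ) ?_ fun g => ⟨qCoeff (g : CF2 N) 1, ?_⟩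
  · intro h
    have h0 : f = 0 := congrArg Subtype.val h
    rw [h0, ← coeffLin_apply, map_zero] at hf1
    exact zero_ne_one hf1
  · refine Subtype.ext (eq_of_qCoeff_eq fun n _ => ?_)
    show coeffLin N n (qCoeff (g : CF2 N) 1 • f : CF2 N) = qCoeff (g : CF2 N) n
    rw [map_smul, smul_eq_mul, coeffLin_apply, qCoeff_of_mem_formEigen N χ hf,
      qCoeff_of_mem_formEigen N χ g.2 n, hf1, mul_one, mul_comm]

theorem pairQuot_mem_parEigen_iff (χ : fullHecke N →+* ℂ) (f g : CF2 N) :
    pairQuot N (f, g) ∈ parEigen N χ ↔ f ∈ formEigen N χ ∧ g ∈ formEigen N χ := by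
  rw [mem_parEigen_iff]
  have e : ∀ t : fullHecke N, (∀ x, pairQuot N (f, g) (heckeQuot N t x) = χ t * pairQuot N (f, g) x)
      ↔ ((t : Module.End ℂ (CF2 N)) f = χ t • f ∧ (t : Module.End ℂ (CF2 N)) g = χ t • g) := by
    intro t
    rw [← Prod.mk.injEq, ← (pairQuot N).injective.eq_iff, pairQuot_hecke]
    rw [← Prod.smul_mk, map_smul, DFunLike.ext_iff]
    exact Iff.rfl
  simp only [e]
  exact ⟨fun h => ⟨fun t => (h t).1, fun t => (h t).2⟩, fun h t => ⟨h.1 t, h.2 t⟩⟩

theorem pairQuot_invol_eq_iff (f g : CF2 N) (ε : ℂ) :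
    (∀ x, pairQuot N (f, g) (parInvol N x) = ε * pairQuot N (f, g) x)
      ↔ f = ε • f ∧ -g = ε • g := by
  rw [← Prod.mk.injEq, ← Prod.smul_mk, ← (pairQuot N).injective.eq_iff, pairQuot_neg_snd,
    map_smul, DFunLike.ext_iff]
  exact Iff.rfl

theorem finrank_parEigen_complex (χ : fullHecke N →+* ℂ) :
    Module.finrank ℂ (parEigen N χ) = 2 := by
  have := finiteDimensional_cf2 N
  let Φ : (formEigen N χ × formEigen N χ) →ₗ[ℂ] (parQuot (Gamma0 N) →+ ℂ) :=
    (pairQuot N).toLinearMap ∘ₗ (formEigen N χ).subtype.prodMap (formEigen N χ).subtype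
  have hinj : Function.Injective Φ := (pairQuot N).injective.comp
    (Function.Injective.prodMap Subtype.val_injective Subtype.val_injective)
  have hr : LinearMap.range Φ = parEigen N χ := by
    refine le_antisymm ?_ fun u hu => ?_
    · rintro _ ⟨⟨f, g⟩, rfl⟩
      exact (pairQuot_mem_parEigen_iff N χ _ _).mpr ⟨f.2, g.2⟩
    · obtain ⟨⟨f, g⟩, rfl⟩ := (pairQuot N).surjective u
      obtain ⟨hf, hg⟩ := (pairQuot_mem_parEigen_iff N χ f g).mp hu
      exact ⟨(⟨f, hf⟩, ⟨g, hg⟩), rfl⟩
  rw [← hr, LinearMap.finrank_range_of_inj hinj, Module.finrank_prod, finrank_formEigen]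

theorem finrank_parEigenInvol_complex (χ : fullHecke N →+* ℂ) (ε : ℂ) (hε : ε = 1 ∨ ε = -1) :
    Module.finrank ℂ (parEigenInvol N χ ε) = 1 := by
  have := finiteDimensional_cf2 N
  rcases hε with rfl | rfl
  · let Φ : formEigen N χ →ₗ[ℂ] (parQuot (Gamma0 N) →+ ℂ) :=
      (pairQuot N).toLinearMap ∘ₗ LinearMap.inl ℂ (CF2 N) (CF2 N) ∘ₗ (formEigen N χ).subtype
    have hinj : Function.Injective Φ := (pairQuot N).injective.comp
      (LinearMap.inl_injective.comp Subtype.val_injective)
    have hr : LinearMap.range Φ = parEigenInvol N χ 1 := by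
      refine le_antisymm ?_ fun u hu => ?_
      · rintro _ ⟨f, rfl⟩
        exact (mem_parEigenInvol_iff N _ _ _).mpr
          ⟨(pairQuot_mem_parEigen_iff N χ _ _).mpr ⟨f.2, zero_mem _⟩,
            (pairQuot_invol_eq_iff N _ _ _).mpr ⟨(one_smul ℂ _).symm, by simp⟩⟩
      · obtain ⟨⟨f, g⟩, rfl⟩ := (pairQuot N).surjective u
        obtain ⟨h1, h2⟩ := (mem_parEigenInvol_iff N _ _ _).mp hu
        obtain ⟨hf, -⟩ := (pairQuot_mem_parEigen_iff N χ f g).mp h1
        obtain ⟨-, hg⟩ := (pairQuot_invol_eq_iff N f g 1).mp h2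
        rw [one_smul] at hg
        have hg0 : g = 0 := CuspForm.ext fun z => by
          have := congrFun (congrArg DFunLike.coe hg) z
          simp at this ⊢
          linear_combination (-1 / 2 : ℂ) * this
        subst hg0
        exact ⟨⟨f, hf⟩, rfl⟩
    rw [← hr, LinearMap.finrank_range_of_inj hinj, finrank_formEigen]
  · let Φ : formEigen N χ →ₗ[ℂ] (parQuot (Gamma0 N) →+ ℂ) :=
      (pairQuot N).toLinearMap ∘ₗ LinearMap.inr ℂ (CF2 N) (CF2 N) ∘ₗ (formEigen N χ).subtype
    have hinj : Function.Injective Φ := (pairQuot N).injective.comp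
      (LinearMap.inr_injective.comp Subtype.val_injective)
    have hr : LinearMap.range Φ = parEigenInvol N χ (-1) := by
      refine le_antisymm ?_ fun u hu => ?_
      · rintro _ ⟨f, rfl⟩
        exact (mem_parEigenInvol_iff N _ _ _).mpr
          ⟨(pairQuot_mem_parEigen_iff N χ _ _).mpr ⟨zero_mem _, f.2⟩,
            (pairQuot_invol_eq_iff N _ _ _).mpr ⟨by simp, by simp⟩⟩
      · obtain ⟨⟨f, g⟩, rfl⟩ := (pairQuot N).surjective u
        obtain ⟨h1, h2⟩ := (mem_parEigenInvol_iff N _ _ _).mp hu
        obtain ⟨-, hg⟩ := (pairQuot_mem_parEigen_iff N χ f g).mp h1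
        obtain ⟨hf, -⟩ := (pairQuot_invol_eq_iff N f g (-1)).mp h2
        have hf0 : f = 0 := CuspForm.ext fun z => by
          have := congrFun (congrArg DFunLike.coe hf) z
          simp at this ⊢
          linear_combination (1 / 2 : ℂ) * this
        subst hf0
        exact ⟨⟨g, hg⟩, rfl⟩
    rw [← hr, LinearMap.finrank_range_of_inj hinj, finrank_formEigen]

/-- A character into a field of characteristic zero factors through a field which embeds
into `ℂ`. -/
theorem exists_complex_model {K : Type*} [Field K] [CharZero K] (χ : fullHecke N →+* K) :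
    ∃ (L : IntermediateField ℚ K) (χ₀ : fullHecke N →+* L) (_ : L →+* ℂ),
      ∀ t, (χ₀ t : K) = χ t := by
  let L := IntermediateField.adjoin ℚ (Set.range χ)
  have halg : ∀ x ∈ Set.range χ, IsAlgebraic ℚ x := by
    rintro _ ⟨t, rfl⟩
    have h : IsIntegral ℤ (χ t) := map_isIntegral_int χ (Algebra.IsIntegral.isIntegral t)
    exact h.tower_top.isAlgebraic
  have : Algebra.IsAlgebraic ℚ L := IntermediateField.isAlgebraic_adjoin fun x hx =>
    (halg x hx).isIntegral
  exact ⟨L, χ.codRestrict L fun t => IntermediateField.subset_adjoin ℚ _ ⟨t, rfl⟩,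
    (IsAlgClosed.lift : L →ₐ[ℚ] ℂ).toRingHom, fun t => rfl⟩

/-- **The eigenspace of every character is two-dimensional.** -/
theorem finrank_parEigen {K : Type*} [Field K] [CharZero K] (χ : fullHecke N →+* K) :
    Module.finrank K (parEigen N χ) = 2 := by
  classical
  obtain ⟨L, χ₀, φ, h⟩ := exists_complex_model N χ
  let b := Module.Free.chooseBasis ℤ (parQuot (Gamma0 N))
  let s := Module.Free.chooseBasis ℤ (fullHecke N)
  have h1 := finrank_sysEigen_map (algebraMap L K) b (fun k => heckeQuot N (s k))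
    (fun k => χ₀ (s k))
  have h2 := finrank_sysEigen_map φ b (fun k => heckeQuot N (s k)) (fun k => χ₀ (s k))
  have e : (fun k => algebraMap L K (χ₀ (s k))) = fun k => χ (s k) := funext fun k => h (s k)
  rw [e] at h1
  have h3 := finrank_parEigen_complex N (φ.comp χ₀)
  rw [show ⇑(φ.comp χ₀) = ⇑(φ.comp χ₀).toAddMonoidHom from rfl,
    parEigen_eq_sysEigen_basis N s] at h3
  show Module.finrank K (parEigen N χ.toAddMonoidHom) = 2
  rw [parEigen_eq_sysEigen_basis N s]
  exact h1.trans (h2.symm.trans h3)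

/-- **Each eigen-line of the involution is one-dimensional.** -/
theorem finrank_parEigenInvol {K : Type*} [Field K] [CharZero K] (χ : fullHecke N →+* K) (ε : K)
    (hε : ε = 1 ∨ ε = -1) :
    Module.finrank K (parEigenInvol N χ ε) = 1 := by
  classical
  obtain ⟨L, χ₀, φ, h⟩ := exists_complex_model N χ
  let b := Module.Free.chooseBasis ℤ (parQuot (Gamma0 N))
  let s := Module.Free.chooseBasis ℤ (fullHecke N)
  obtain ⟨e₀, he₀, hφ⟩ : ∃ e : L, (e : K) = ε ∧ (φ e = 1 ∨ φ e = -1) := by
    rcases hε with rfl | rfl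
    · exact ⟨1, rfl, Or.inl (map_one φ)⟩
    · exact ⟨-1, by simp, Or.inr (by simp)⟩
  let M := Sum.elim (fun k => heckeQuot N (s k)) fun _ : Unit => (parInvol N).toIntLinearMap
  have h1 := finrank_sysEigen_map (algebraMap L K) b M
    (Sum.elim (fun k => χ₀ (s k)) fun _ : Unit => e₀)
  have h2 := finrank_sysEigen_map φ b M (Sum.elim (fun k => χ₀ (s k)) fun _ : Unit => e₀)
  have e1 : (fun x => algebraMap L K (Sum.elim (fun k => χ₀ (s k)) (fun _ : Unit => e₀) x))
      = Sum.elim (fun k => χ (s k)) fun _ : Unit => ε := funext fun x => by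
    rcases x with k | u
    exacts [h (s k), he₀]
  have e2 : (fun x => φ (Sum.elim (fun k => χ₀ (s k)) (fun _ : Unit => e₀) x))
      = Sum.elim (fun k => φ (χ₀ (s k))) fun _ : Unit => φ e₀ := funext fun x => by
    rcases x with k | u <;> rfl
  rw [e1] at h1
  rw [e2] at h2
  have h3 := finrank_parEigenInvol_complex N (φ.comp χ₀) (φ e₀) hφ
  rw [show ⇑(φ.comp χ₀) = ⇑(φ.comp χ₀).toAddMonoidHom from rfl,
    parEigenInvol_eq_sysEigen_basis N s] at h3
  show Module.finrank K (parEigenInvol N χ.toAddMonoidHom ε) = 1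
  rw [parEigenInvol_eq_sysEigen_basis N s]
  exact h1.trans (h2.symm.trans h3)

/-- The involution does not act as a scalar on an eigenspace. -/
theorem exists_parEigen_invol_ne {K : Type*} [Field K] [CharZero K] (χ : fullHecke N →+* K)
    (a : K) : ∃ u ∈ parEigen N χ, ∃ x, u (parInvol N x) ≠ a * u x := by
  by_contra hcon
  push Not at hcon
  have h2 := finrank_parEigen N χ
  have key : ∀ ε : K, (ε = 1 ∨ ε = -1) → a = ε := by
    intro ε hε
    have hne0 : parEigenInvol N χ ε ≠ ⊥ := fun hb => by
      have h := finrank_parEigenInvol N χ ε hε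
      rw [hb, finrank_bot] at h
      exact zero_ne_one h
    obtain ⟨v, hvm, hv0⟩ := Submodule.exists_mem_ne_zero_of_ne_bot hne0
    obtain ⟨hve, hvi⟩ := (mem_parEigenInvol_iff N _ _ _).mp hvm
    by_contra hne
    refine hv0 (AddMonoidHom.ext fun x => ?_)
    have h := (hcon _ hve x).symm.trans (hvi x)
    exact (mul_eq_mul_right_iff.mp h).resolve_left hne
  have h := (key 1 (Or.inl rfl)).symm.trans (key (-1) (Or.inr rfl))
  norm_num at h

/-- A character of a Hecke subalgebra extends to the full Hecke algebra with values in an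
algebraically closed field. -/
theorem exists_char_extension_algClosed (S : Set ℕ) {K : Type*} [Field K] [IsAlgClosed K]
    (χ : CuspForm.heckeAlgebra N 2 S →+* K) :
    ∃ χ' : fullHecke N →+* K, ∀ (t : CuspForm.heckeAlgebra N 2 S),
      χ' (Subalgebra.inclusion (CuspForm.heckeAlgebra_mono (Set.empty_subset S)) t) = χ t :=
  exists_intExtension_algClosed
    (Subalgebra.inclusion (CuspForm.heckeAlgebra_mono (Set.empty_subset S))).toRingHom
    (Subalgebra.inclusion_injective _) χ

end FLTA.Periods
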