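import Fermat.Agent.Hecke.Eigen
import Fermat.Agent.Periods.IntegralStructure

/-!
# Characters of the full Hecke algebra are normalised eigenforms
-/

set_option autoImplicit false

noncomputable section

open ModularFormClass

namespace FLTA.Periods

variable (N : ℕ) [NeZero N]

/-- The form with `a₁(t f) = χ t`. -/
def formOfHom (χ : fullHecke N →+* ℂ) : CF2 N :=
  ∑ j, χ (heckeBasis N j) • dualForms N j

theorem qCoeff_one_hecke_formOfHom (χ : fullHecke N →+* ℂ) (t : fullHecke N) :
    qCoeff ((t : Module.End ℂ (CF2 N)) (formOfHom N χ)) 1 = χ t := by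
  have hu : χ t = ∑ j, ((heckeBasis N).repr t j : ℂ) * χ (heckeBasis N j) := by
    conv_lhs => rw [← (heckeBasis N).sum_repr t, map_sum]
    simp only [zsmul_eq_mul, map_mul, map_intCast]
  rw [formOfHom, map_sum, ← coeffLin_apply, map_sum, hu]
  refine Finset.sum_congr rfl fun j _ => ?_
  rw [map_smul, map_smul, coeffLin_apply, qCoeff_one_hecke_dualForms, smul_eq_mul, mul_comm]

theorem qCoeff_formOfHom (χ : fullHecke N →+* ℂ) (n : ℕ) :
    qCoeff (formOfHom N χ) n = χ (heckeOp N n) := by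
  rw [← qCoeff_one_hecke_formOfHom, qCoeff_one_heckeOp]

theorem hecke_formOfHom (χ : fullHecke N →+* ℂ) (t : fullHecke N) :
    (t : Module.End ℂ (CF2 N)) (formOfHom N χ) = χ t • formOfHom N χ := by
  refine eq_of_qCoeff_eq fun n _ => ?_
  rw [← qCoeff_one_heckeOp N n, ← coeffLin_apply n, map_smul, coeffLin_apply, qCoeff_formOfHom,
    ← Module.End.mul_apply, ← MulMemClass.coe_mul, qCoeff_one_hecke_formOfHom, map_mul,
    smul_eq_mul, mul_comm]

theorem heckeOp_one : heckeOp N 1 = 1 := by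
  refine Subtype.ext (sub_eq_zero.mp (eq_zero_of_qCoeff_one
    (Submodule.sub_mem _ (coe_mem_heckeSpan N _) (coe_mem_heckeSpan N _)) fun f => ?_))
  rw [LinearMap.sub_apply, ← coeffLin_apply, map_sub, coeffLin_apply, coeffLin_apply,
    qCoeff_one_heckeOp]
  simp

theorem qCoeff_one_formOfHom (χ : fullHecke N →+* ℂ) : qCoeff (formOfHom N χ) 1 = 1 := by
  rw [qCoeff_formOfHom, heckeOp_one, map_one]

theorem isNormalizedEigenform_formOfHom (χ : fullHecke N →+* ℂ) :
    (formOfHom N χ).IsNormalizedEigenform := by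
  let c : ℕ → ℂ := fun p => qCoeff (formOfHom N χ) p
  have h1 := qCoeff_one_formOfHom N χ
  have hprime : ∀ p : ℕ, p.Prime → ∀ t : fullHecke N,
      (∀ f : CF2 N, qCoeff ((t : Module.End ℂ (CF2 N)) f) 1 = qCoeff f p) →
      (t : Module.End ℂ (CF2 N)) (formOfHom N χ) = c p • formOfHom N χ := by
    intro p _ t ht
    have hc : c p = χ t := (ht _).symm.trans (qCoeff_one_hecke_formOfHom N χ t)
    rw [hecke_formOfHom, hc]
  refine FLTA.Hecke.isNormalizedEigenform_of_recursion (c := c) h1
    (FLTA.Hecke.satisfiesRecursion_of_eigenvector ?_ ?_)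
  · intro p hp hpN
    exact hprime p hp (CuspForm.heckeAlgebra.T hp hpN (Set.notMem_empty p)) fun f => by
      rw [CuspForm.heckeAlgebra.coe_T, qCoeff_heckeTLin, if_neg hp.not_dvd_one, one_mul, add_zero]
  · intro p hp hpN
    exact hprime p hp (CuspForm.heckeAlgebra.U hp hpN (Set.notMem_empty p)) fun f => by
      rw [CuspForm.heckeAlgebra.coe_U, qCoeff_heckeULin hp, one_mul]

theorem eq_formOfHom (χ : fullHecke N →+* ℂ) {f : CF2 N} (hf1 : qCoeff f 1 = 1)
    (hf : ∀ t : fullHecke N, (t : Module.End ℂ (CF2 N)) f = χ t • f) : f = formOfHom N χ := by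
  refine eq_of_qCoeff_eq fun n _ => ?_
  rw [qCoeff_formOfHom, ← qCoeff_one_heckeOp N n f, hf, ← coeffLin_apply, map_smul, coeffLin_apply,
    hf1, smul_eq_mul, mul_one]

theorem formOfHom_injective : Function.Injective (formOfHom N) := fun χ ψ h =>
  RingHom.ext fun t => by
    rw [← qCoeff_one_hecke_formOfHom, h, qCoeff_one_hecke_formOfHom]

end FLTA.Periods
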