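import Mathlib.RingTheory.Ideal.GoingUp
import Mathlib.FieldTheory.IsAlgClosed.AlgebraicClosure
import Mathlib.FieldTheory.IntermediateField.Adjoin.Basic
import Mathlib.RingTheory.IntegralClosure.IsIntegralClosure.Basic
import Fermat.Agent.Periods.HeckeQuot

/-!
# Extending characters of anemic Hecke algebras
-/

set_option autoImplicit false

noncomputable section

namespace FLTA.Periods

theorem exists_ringHom_extension_of_isIntegral {A B : Type*} [CommRing A] [CommRing B] [Algebra A B]
    [Algebra.IsIntegral A B] [FaithfulSMul A B] {K : Type*} [Field K] [IsAlgClosed K]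
    (χ : A →+* K) : ∃ ψ : B →+* K, ψ.comp (algebraMap A B) = χ := by
  have hP : (RingHom.ker χ).IsPrime := RingHom.ker_isPrime χ
  obtain ⟨Q, hQ, hQc⟩ := Ideal.exists_ideal_over_prime_of_isIntegral (S := B) (RingHom.ker χ) ⊥
    (fun x hx => by
      rw [Ideal.mem_comap, Ideal.mem_bot] at hx
      rw [(FaithfulSMul.algebraMap_injective A B) (hx.trans (map_zero _).symm)]
      exact zero_mem _)
  have := hQc.1
  let i : A ⧸ RingHom.ker χ →+* B ⧸ Q :=
    Ideal.quotientMap Q (algebraMap A B) hQc.2.ge
  have hi : Function.Injective i := Ideal.quotientMap_injective' hQc.2.le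
  algebraize [i]
  let χ' : A ⧸ RingHom.ker χ →+* K := RingHom.kerLift χ
  have hχ' : Function.Injective χ' := RingHom.kerLift_injective χ
  let : Algebra (A ⧸ RingHom.ker χ) K := χ'.toAlgebra
  have : FaithfulSMul (A ⧸ RingHom.ker χ) K := (faithfulSMul_iff_algebraMap_injective _ _).mpr hχ'
  have : FaithfulSMul (A ⧸ RingHom.ker χ) (B ⧸ Q) :=
    (faithfulSMul_iff_algebraMap_injective _ _).mpr hi
  have : Algebra.IsAlgebraic (A ⧸ RingHom.ker χ) (B ⧸ Q) := by
    have : Algebra.IsIntegral (A ⧸ RingHom.ker χ) (B ⧸ Q) := by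
      refine ⟨fun x => ?_⟩
      obtain ⟨b, rfl⟩ := Ideal.Quotient.mk_surjective x
      obtain ⟨p, hp, hpb⟩ := Algebra.IsIntegral.isIntegral (R := A) b
      refine ⟨p.map (Ideal.Quotient.mk _), hp.map _, ?_⟩
      rw [Polynomial.eval₂_map]
      have := congrArg (Ideal.Quotient.mk Q) hpb
      rw [Polynomial.hom_eval₂, map_zero] at this
      exact this
    exact Algebra.IsIntegral.isAlgebraic
  let ψ : B ⧸ Q →ₐ[A ⧸ RingHom.ker χ] K := IsAlgClosed.lift
  exact ⟨ψ.toRingHom.comp (Ideal.Quotient.mk Q), RingHom.ext fun a =>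
    ψ.commutes (Ideal.Quotient.mk _ a)⟩

variable {N : ℕ} [NeZero N]

/-- A character of an anemic Hecke algebra extends to the full one, into an algebraically closed
field. -/
theorem exists_char_extension_anemic {S : Set ℕ} {K : Type*} [Field K] [IsAlgClosed K]
    (χ : CuspForm.heckeAlgebra N 2 S →+* K) :
    ∃ ψ : fullHecke N →+* K, ψ.comp
      (Subalgebra.inclusion (CuspForm.heckeAlgebra_mono (Set.empty_subset S))).toRingHom = χ := by
  let i := (Subalgebra.inclusion
    (CuspForm.heckeAlgebra_mono (N := N) (k := 2) (Set.empty_subset S))).toRingHom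
  have hi : Function.Injective i := Subalgebra.inclusion_injective _
  let : Algebra (CuspForm.heckeAlgebra N 2 S) (fullHecke N) := i.toAlgebra
  have : FaithfulSMul (CuspForm.heckeAlgebra N 2 S) (fullHecke N) :=
    (faithfulSMul_iff_algebraMap_injective _ _).mpr hi
  have : Algebra.IsIntegral (CuspForm.heckeAlgebra N 2 S) (fullHecke N) :=
    ⟨fun x => IsIntegral.tower_top (R := ℤ) (Algebra.IsIntegral.isIntegral x)⟩
  exact exists_ringHom_extension_of_isIntegral χ

/-- A character of an anemic Hecke algebra extends to the full one over a finite extension. -/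
theorem exists_char_extension_finite {S : Set ℕ} {K : Type*} [Field K]
    (χ : CuspForm.heckeAlgebra N 2 S →+* K) :
    ∃ (L : IntermediateField K (AlgebraicClosure K)) (ψ : fullHecke N →+* L),
      FiniteDimensional K L ∧ (∀ t, IsIntegral ℤ (ψ t)) ∧
      ∀ t, ψ (Subalgebra.inclusion (CuspForm.heckeAlgebra_mono (Set.empty_subset S)) t)
        = algebraMap K L (χ t) := by
  obtain ⟨ψ, hψ⟩ := exists_char_extension_anemic ((algebraMap K (AlgebraicClosure K)).comp χ)
  let b := Module.Free.chooseBasis ℤ (fullHecke N)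
  let L := IntermediateField.adjoin K (Set.range fun i => ψ (b i))
  have hmem : ∀ t, ψ t ∈ L := fun t => by
    rw [← b.sum_repr t, map_sum]
    exact sum_mem fun i _ => by
      rw [map_zsmul]
      exact zsmul_mem (IntermediateField.subset_adjoin K _ (Set.mem_range_self i)) _
  have hfin : FiniteDimensional K L :=
    IntermediateField.finiteDimensional_adjoin (L := AlgebraicClosure K) fun x _ =>
      Algebra.IsIntegral.isIntegral x
  refine ⟨L, ψ.codRestrict L hmem, hfin, fun t => ?_, fun t => Subtype.ext ?_⟩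
  · exact (Algebra.IsIntegral.isIntegral t).map (ψ.codRestrict L hmem).toIntAlgHom
  · exact RingHom.congr_fun hψ t

end FLTA.Periods
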