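import Mathlib

/-!
# Kernels of matrices under extension of the base field
-/

set_option autoImplicit false

namespace FLTA.Periods

variable {L K : Type*} [Field L] [Field K]

/-- The dimension of a span is invariant under extension of the base field. -/
theorem finrank_span_range_map (f : L →+* K) {ι m : Type*} [Finite ι] [Finite m]
    (v : ι → m → L) :
    Module.finrank K (Submodule.span K (Set.range fun i => f ∘ v i))
      = Module.finrank L (Submodule.span L (Set.range v)) := by
  classical
  let := f.toAlgebra
  obtain ⟨κ, a, ha, hspan, hli⟩ := exists_linearIndependent' L v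
  have : Finite κ := Finite.of_injective a ha
  have : Fintype κ := Fintype.ofFinite κ
  have hliK : LinearIndependent K (fun k => f ∘ v (a k)) :=
    (linearIndependent_algebraMap_comp_iff (R := L) (S := K) (v := fun k => v (a k))).mpr hli
  have hle : Submodule.span K (Set.range fun i => f ∘ v i)
      = Submodule.span K (Set.range fun k => f ∘ v (a k)) := by
    refine le_antisymm (Submodule.span_le.mpr ?_) (Submodule.span_mono ?_)
    · rintro _ ⟨i, rfl⟩
      have hi : v i ∈ Submodule.span L (Set.range (v ∘ a)) :=
        hspan ▸ Submodule.subset_span ⟨i, rfl⟩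
      obtain ⟨c, hc⟩ := (Submodule.mem_span_range_iff_exists_fun L).mp hi
      refine (Submodule.mem_span_range_iff_exists_fun K).mpr ⟨fun k => f (c k), ?_⟩
      funext j
      have := congrArg f (congrFun hc j)
      simpa [Finset.sum_apply, map_sum] using this
    · rintro _ ⟨k, rfl⟩
      exact ⟨a k, rfl⟩
  rw [hle, finrank_span_eq_card hliK, ← hspan, finrank_span_eq_card hli]

/-- The dimension of the solution space of a linear system is invariant under field extension. -/
theorem finrank_ker_mulVecLin_map (f : L →+* K) {m n : Type*} [Finite m] [Fintype n]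
    (A : Matrix m n L) :
    Module.finrank K (LinearMap.ker (A.map f).mulVecLin)
      = Module.finrank L (LinearMap.ker A.mulVecLin) := by
  have h1 := (A.map f).mulVecLin.finrank_range_add_finrank_ker
  have h2 := A.mulVecLin.finrank_range_add_finrank_ker
  rw [Module.finrank_fintype_fun_eq_card, Matrix.range_mulVecLin] at h1 h2
  have h3 : Module.finrank K (Submodule.span K (Set.range (A.map f).col))
      = Module.finrank L (Submodule.span L (Set.range A.col)) :=
    finrank_span_range_map f A.col
  omega

theorem exists_extension_of_isIntegral {A B C D K : Type*} [CommRing A] [IsDomain A]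
    [CommRing B] [IsDomain B] [CommRing C] [Field K] [IsAlgClosed K] (j : A →+* B)
    (hj : Function.Injective j) (hint : j.IsIntegral) (χ : A →+* K) (hχ : Function.Injective χ)
    (q : C →+* B) {u : D → K} {i : D → C}
    (h : ∀ d, ∃ a, j a = q (i d) ∧ χ a = u d) : ∃ χ' : C →+* K, ∀ d, χ' (i d) = u d := by
  let := j.toAlgebra
  let := χ.toAlgebra
  have : Module.IsTorsionFree A K := Module.isTorsionFree_iff_algebraMap_injective.mpr hχ
  have : Module.IsTorsionFree A B := Module.isTorsionFree_iff_algebraMap_injective.mpr hj
  have : Algebra.IsIntegral A B := ⟨hint⟩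
  have : Algebra.IsAlgebraic A B := Algebra.IsIntegral.isAlgebraic
  let ψ : B →ₐ[A] K := IsAlgClosed.lift
  refine ⟨ψ.toRingHom.comp q, fun d => ?_⟩
  obtain ⟨a, ha, ha'⟩ := h d
  rw [← ha', RingHom.comp_apply, ← ha]
  exact ψ.commutes a

/-- A character of a subring of an integral ring extends, with values in an algebraically closed
field. -/
theorem exists_intExtension_algClosed {A B K : Type*} [CommRing A] [CommRing B] [Field K]
    [IsAlgClosed K] [Algebra.IsIntegral ℤ B] (i : A →+* B) (hi : Function.Injective i)
    (χ : A →+* K) : ∃ χ' : B →+* K, ∀ a, χ' (i a) = χ a := by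
  let := i.toAlgebra
  have : Algebra.IsIntegral A B :=
    ⟨fun x => (Algebra.IsIntegral.isIntegral (R := ℤ) x).tower_top⟩
  have hp : (RingHom.ker χ).IsPrime := RingHom.ker_isPrime χ
  obtain ⟨P, -, hP, hcomap⟩ := Ideal.exists_ideal_over_prime_of_isIntegral (RingHom.ker χ)
    (⊥ : Ideal B) (by
      rw [← RingHom.ker_eq_comap_bot, RingHom.algebraMap_toAlgebra,
        (RingHom.injective_iff_ker_eq_bot _).mp hi]
      exact bot_le)
  let j : A →+* B ⧸ P := (Ideal.Quotient.mk P).comp i
  have hj : RingHom.ker j = RingHom.ker χ := by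
    rw [← hcomap, ← RingHom.comap_ker, Ideal.mk_ker]
    rfl
  have hint : j.IsIntegral := fun x => by
    obtain ⟨y, rfl⟩ := Ideal.Quotient.mk_surjective x
    exact (Algebra.IsIntegral.isIntegral (R := A) y).map
      ({ toRingHom := Ideal.Quotient.mk P, commutes' := fun _ => rfl } :
        B →ₐ[A] (B ⧸ P))
  let j₀ : A ⧸ RingHom.ker χ →+* B ⧸ P :=
    Ideal.Quotient.lift (RingHom.ker χ) j fun a ha => by rwa [← hj] at ha
  have hj₀ : Function.Injective j₀ :=
    RingHom.lift_injective_of_ker_le_ideal _ _ hj.le
  have hint₀ : j₀.IsIntegral := RingHom.IsIntegral.tower_top (Ideal.Quotient.mk _) j₀ hint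
  exact exists_extension_of_isIntegral j₀ hj₀ hint₀ (RingHom.kerLift χ)
    (RingHom.kerLift_injective χ) (Ideal.Quotient.mk P) fun a => ⟨Ideal.Quotient.mk _ a, rfl, rfl⟩

end FLTA.Periods
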