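import Fermat.Agent.Periods.MaxPrinciple

/-!
# Injectivity of `periodHomPair`

If the periods of `f` satisfy `p (jγj) = ± p γ` and `p` vanishes after the symmetrisation then
`f = 0`.
-/

set_option autoImplicit false

noncomputable section

open UpperHalfPlane hiding I
open CongruenceSubgroup ModularCurve ModularCurve.Period Filter Topology Complex
open scoped MatrixGroups ModularForm Manifold Real ComplexConjugate

namespace FLTA.Periods

/-- `J` conjugates the Möbius action of `γ` into that of `jConjSL γ`. -/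
lemma J_smul_smul (γ : SL(2, ℤ)) (z : ℍ) : J • (γ • z) = jConjSL γ • (J • z) := by
  have h : (J : GL (Fin 2) ℝ) * (γ : GL (Fin 2) ℝ) = (jConjSL γ : GL (Fin 2) ℝ) * J := by
    ext i j
    fin_cases i <;> fin_cases j <;>
      simp [UpperHalfPlane.J, Matrix.mul_apply, Fin.sum_univ_two, jConjMat,
        Matrix.GeneralLinearGroup.mkOfDetNeZero]
  show J • ((γ : GL (Fin 2) ℝ) • z) = (jConjSL γ : GL (Fin 2) ℝ) • (J • z)
  rw [← mul_smul, h, mul_smul]

lemma tendsto_J_smul_atImInfty : Tendsto (fun w : ℍ => J • w) atImInfty atImInfty := by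
  have him : ∀ w : ℍ, (J • w).im = w.im := fun w => by
    have h := congrArg Complex.im (coe_J_smul w)
    simpa using h
  rw [atImInfty, tendsto_comap_iff]
  exact Tendsto.congr (fun w => (him w).symm) tendsto_comap

lemma hasDerivAt_conj_comp_J {f F : ℍ → ℂ} (hF : IsPrimitive f F) (τ : ℍ) :
    HasDerivAt ((fun σ : ℍ => conj (F (J • σ))) ∘ ofComplex) (-conj (f (J • τ))) (τ : ℂ) := by
  have h1 : HasDerivAt ((F ∘ ofComplex) ∘ Neg.neg) (f (J • τ) * -1) (conj (τ : ℂ)) := by
    refine HasDerivAt.comp (conj (τ : ℂ)) ?_ (hasDerivAt_neg _)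
    rw [← coe_J_smul]
    exact hF (J • τ)
  have h2 := h1.conj_conj
  rw [Complex.conj_conj] at h2
  refine (h2.congr_of_eventuallyEq ?_).congr_deriv (by simp)
  filter_upwards [isOpen_upperHalfPlaneSet.mem_nhds τ.im_pos] with x hx
  simp [J_smul, ofComplex_apply_of_im_pos hx]

variable (N : ℕ) [NeZero N]

/-- If the periods of `f` are `± ` symmetric under `jConjGamma0`, then `f = 0`. -/
theorem eq_zero_of_symmetric (f : CuspForm (Gamma0 N) 2) (s : ℝ) (hs : s = 1 ∨ s = -1)
    (h : ∀ γ : Gamma0 N, periodMap N f (Additive.ofMul (jConjGamma0 N γ))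
      = s * periodMap N f (Additive.ofMul γ)) : f = 0 := by
  set F := prim N f with hF
  have hp := isPrimitive_prim N f
  have hper : ∀ (γ : Gamma0 N) (τ : ℍ),
      F ((γ : SL(2, ℤ)) • τ) = F τ + periodMap N f (Additive.ofMul γ) := fun γ τ => by
    rw [periodMap_apply_eq N f γ τ, hF]; ring
  have key : ∀ (e : ℝ) (c : ℂ),
      (∀ p : ℂ, (c * (p + ((e * s : ℝ) : ℂ) * conj p)).re = 0) →
      ∀ z w : ℍ, c * (F z + (e : ℂ) * conj (F (J • z))) = c * (F w + (e : ℂ) * conj (F (J • w))) := by
    intro e c hec
    have hder : ∀ τ : ℍ, HasDerivAt ((fun σ : ℍ => c * (F σ + (e : ℂ) * conj (F (J • σ)))) ∘ ofComplex)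
        (c * (f τ + (e : ℂ) * -conj (f (J • τ)))) (τ : ℂ) := fun τ =>
      (((hp τ).add ((hasDerivAt_conj_comp_J hp τ).const_mul (e : ℂ))).const_mul c)
    have hshift : ∀ (γ : Gamma0 N) (z : ℍ),
        c * (F ((γ : SL(2, ℤ)) • z) + (e : ℂ) * conj (F (J • ((γ : SL(2, ℤ)) • z))))
          - c * (F z + (e : ℂ) * conj (F (J • z)))
        = c * (periodMap N f (Additive.ofMul γ)
            + ((e * s : ℝ) : ℂ) * conj (periodMap N f (Additive.ofMul γ))) := by
      intro γ z
      have h2 := hper (jConjGamma0 N γ) (J • z)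
      rw [h γ, jConjGamma0_coe] at h2
      rw [J_smul_smul, h2, hper γ z]
      simp only [map_add, map_mul, Complex.conj_ofReal, Complex.ofReal_mul]
      ring
    refine const_of_periods_imaginary N (H := fun σ => c * (F σ + (e : ℂ) * conj (F (J • σ))))
      ?_ ?_ ?_ ?_
    · rw [UpperHalfPlane.mdifferentiable_iff]
      exact fun x hx => (hder ⟨x, hx⟩).differentiableAt.differentiableWithinAt
    · exact fun γ => ⟨_, hshift γ⟩
    · intro γ z
      have h1 := congrArg Complex.re (hshift γ z)
      rw [hec, Complex.sub_re, sub_eq_zero] at h1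
      exact h1
    · intro δ
      obtain ⟨L, hL⟩ := (prim_spec N f).2.2.2 δ
      obtain ⟨M, hM⟩ := (prim_spec N f).2.2.2 (jConjSL δ)
      refine ⟨c * (L + (e : ℂ) * conj M), Tendsto.const_mul _ (hL.add (Tendsto.const_mul _ ?_))⟩
      have h1 := (Complex.continuous_conj.tendsto M).comp (hM.comp tendsto_J_smul_atImInfty)
      exact h1.congr fun w => by simp only [Function.comp_apply, J_smul_smul, hF]
  have h1 := key (-s) 1 (fun p => by rcases hs with rfl | rfl <;> simp [Complex.add_re])
  have h2 := key s Complex.I (fun p => by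
    rcases hs with rfl | rfl <;> simp [Complex.add_im, Complex.mul_re])
  have hconst : ∀ z w : ℍ, F z = F w := by
    intro z w
    have e1 := h1 z w
    have e2 := mul_left_cancel₀ Complex.I_ne_zero (h2 z w)
    push_cast at e1 e2
    linear_combination (e1 + e2) / 2
  apply CuspForm.ext
  intro τ
  have he : (F ∘ ofComplex) = fun _ => F τ := funext fun x => hconst _ _
  have hd := hp τ
  rw [← hF, he] at hd
  exact hd.unique (hasDerivAt_const (τ : ℂ) (F τ))

/-- `periodHomPair` is injective. -/
theorem periodHomPair_injective' : Function.Injective (periodHomPair N) := by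
  refine (injective_iff_map_eq_zero _).mpr fun x hx => ?_
  obtain ⟨f, g⟩ := x
  rw [periodHomPair_apply] at hx
  have hinv := congrArg (charInvolution N ℂ ℂ) hx
  simp only [map_add, map_sub, map_zero, charInvolution_charInvolution] at hinv
  have hp : periodMap N f + charInvolution N ℂ ℂ (periodMap N f) = 0 := by
    refine AddMonoidHom.ext fun γ => ?_
    have a := DFunLike.congr_fun hx γ
    have b := DFunLike.congr_fun hinv γ
    simp only [AddMonoidHom.add_apply, AddMonoidHom.sub_apply, AddMonoidHom.zero_apply] at a b ⊢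
    linear_combination (a + b) / 2
  have hm : periodMap N g - charInvolution N ℂ ℂ (periodMap N g) = 0 := by
    rw [hp, zero_add] at hx
    exact hx
  have hf : f = 0 := eq_zero_of_symmetric N f (-1) (Or.inr rfl) fun γ => by
    have a := DFunLike.congr_fun hp (Additive.ofMul γ)
    simp only [AddMonoidHom.add_apply, AddMonoidHom.zero_apply, charInvolution_apply,
      toMul_ofMul] at a
    push_cast
    linear_combination a
  have hg : g = 0 := eq_zero_of_symmetric N g 1 (Or.inl rfl) fun γ => by
    have a := DFunLike.congr_fun hm (Additive.ofMul γ)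
    simp only [AddMonoidHom.sub_apply, AddMonoidHom.zero_apply, charInvolution_apply,
      toMul_ofMul] at a
    push_cast
    linear_combination -a
  rw [hf, hg]
  rfl

end FLTA.Periods
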