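import Fermat.Agent.Periods.Primitive

/-!
# Maximum principle for primitives with imaginary periods

An equivariant holomorphic function on `ℍ` with limits at all cusps whose periods are purely
imaginary is constant.
-/

set_option autoImplicit false

noncomputable section

open UpperHalfPlane hiding I
open CongruenceSubgroup ModularCurve.Period Filter Topology Complex
open scoped MatrixGroups ModularForm Manifold Real Modular

namespace FLTA.Periods

/-- If `exp ∘ H` is constant then so is `H`. -/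
lemma const_of_exp_const {H : ℍ → ℂ} (hH : MDiff H) {c : ℂ} (h : ∀ τ, Complex.exp (H τ) = c)
    (z w : ℍ) : H z = H w := by
  have hd : DifferentiableOn ℂ (H ∘ ofComplex) upperHalfPlaneSet :=
    UpperHalfPlane.mdifferentiable_iff.mp hH
  have hconst : ∀ x : ℂ, 0 < x.im → deriv (H ∘ ofComplex) x = 0 := by
    intro x hx
    have h1 := ((hd.differentiableAt (isOpen_upperHalfPlaneSet.mem_nhds hx)).hasDerivAt).cexp
    have h2 : HasDerivAt (fun y => Complex.exp ((H ∘ ofComplex) y)) 0 x := by
      simp only [Function.comp_apply, h]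
      exact hasDerivAt_const x c
    exact (mul_eq_zero.mp (h1.unique h2)).resolve_left (Complex.exp_ne_zero _)
  obtain ⟨a, ha⟩ := isOpen_upperHalfPlaneSet.exists_is_const_of_deriv_eq_zero
    (convex_halfSpace_im_gt 0).isPreconnected hd (fun x hx => hconst x hx)
  have hz := ha z z.im_pos
  have hw := ha w w.im_pos
  simp only [Function.comp_apply, ofComplex_apply] at hz hw
  rw [hz, hw]

/-- If `‖exp ∘ H‖` has a maximum on `ℍ` then `H` is constant. -/
lemma const_of_re_le {H : ℍ → ℂ} (hH : MDiff H) (z₀ : ℍ) (h : ∀ τ, (H τ).re ≤ (H z₀).re)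
    (z w : ℍ) : H z = H w := by
  have hd : DifferentiableOn ℂ (fun x => Complex.exp ((H ∘ ofComplex) x)) upperHalfPlaneSet :=
    (UpperHalfPlane.mdifferentiable_iff.mp hH).cexp
  have hm : IsMaxOn (norm ∘ fun x => Complex.exp ((H ∘ ofComplex) x)) upperHalfPlaneSet (z₀ : ℂ) := by
    intro x hx
    simpa [Complex.norm_exp] using h (ofComplex x)
  have heq := Complex.eqOn_of_isPreconnected_of_isMaxOn_norm
    (convex_halfSpace_im_gt 0).isPreconnected isOpen_upperHalfPlaneSet hd z₀.im_pos hm
  refine const_of_exp_const hH (c := Complex.exp (H z₀)) (fun τ => ?_) z w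
  simpa using heq τ.im_pos

/-- If a periodic `H` with a limit at infinity has `re` bounded by the real part of the limit, it
is constant. -/
lemma const_of_re_le_limit {H : ℍ → ℂ} (hH : MDiff H) {h : ℝ} (hh : 0 < h)
    (hper : Function.Periodic (H ∘ ofComplex) h) {M : ℂ} (hM : Tendsto H atImInfty (𝓝 M))
    (hle : ∀ τ, (H τ).re ≤ M.re) (z w : ℍ) : H z = H w := by
  set G : ℍ → ℂ := fun τ => Complex.exp (H τ) with hG
  have hGt : Tendsto G atImInfty (𝓝 (Complex.exp M)) :=
    (Complex.continuous_exp.tendsto M).comp hM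
  have hGd : MDiff G := by
    rw [UpperHalfPlane.mdifferentiable_iff] at hH ⊢
    exact hH.cexp
  have hGp : Function.Periodic (G ∘ ofComplex) h := fun x => congrArg Complex.exp (hper x)
  have hGb : IsBoundedAtImInfty G := hGt.isBigO_one ℝ
  have hd : DifferentiableOn ℂ (cuspFunction h G) (Metric.ball 0 1) :=
    differentiableOn_cuspFunction_ball hh hGp hGd hGb
  have h0 : cuspFunction h G 0 = Complex.exp M := by
    rw [cuspFunction_apply_zero hh (analyticAt_cuspFunction_zero hh hGp hGd hGb) hGp]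
    exact hGt.limUnder_eq
  have hm : IsMaxOn (norm ∘ cuspFunction h G) (Metric.ball 0 1) 0 := by
    intro q hq
    show ‖cuspFunction h G q‖ ≤ ‖cuspFunction h G 0‖
    rw [h0]
    rcases eq_or_ne q 0 with rfl | hq'
    · rw [h0]
    · have him := Function.Periodic.im_invQParam_pos_of_norm_lt_one hh
        (mem_ball_zero_iff.mp hq) hq'
      have he := eq_cuspFunction ⟨_, him⟩ hh.ne' hGp
      rw [show ((⟨_, him⟩ : ℍ) : ℂ) = Function.Periodic.invQParam h q from rfl,
        Function.Periodic.qParam_right_inv hh.ne' hq'] at he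
      rw [he, hG]
      simpa [Complex.norm_exp] using hle _
  have heq := Complex.eqOn_of_isPreconnected_of_isMaxOn_norm (convex_ball (0 : ℂ) 1).isPreconnected
    Metric.isOpen_ball hd (Metric.mem_ball_self one_pos) hm
  refine const_of_exp_const hH (c := Complex.exp M) (fun τ => ?_) z w
  have := heq (x := Function.Periodic.qParam h (τ : ℂ))
    (by simpa using Function.Periodic.norm_qParam_lt_one hh τ.im_pos)
  rw [Function.const_apply, h0, eq_cuspFunction τ hh.ne' hGp] at this
  exact this

variable (N : ℕ) [NeZero N]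

/-- An equivariant holomorphic function with limits at all cusps and purely imaginary periods is
constant. -/
theorem const_of_periods_imaginary {H : ℍ → ℂ} (hH : MDiff H)
    (heq : IsEquivariantPrimitive (Gamma0 N) H)
    (hre : ∀ (γ : Gamma0 N) (z : ℍ), (H ((γ : SL(2, ℤ)) • z)).re = (H z).re)
    (hlim : ∀ δ : SL(2, ℤ), ∃ L, Tendsto (fun w : ℍ => H (δ • w)) atImInfty (𝓝 L))
    (z w : ℍ) : H z = H w := by
  classical
  let ι := SL(2, ℤ) ⧸ Gamma0 N
  have : (Gamma0 N).FiniteIndex := inferInstance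
  have : Fintype ι := Subgroup.fintypeQuotientOfFiniteIndex
  have : Nonempty ι := ⟨((1 : SL(2, ℤ)) : ι)⟩
  let rep : ι → SL(2, ℤ) := fun i => (Quotient.out i)⁻¹
  choose L hL using hlim
  let ψ : ι → ℍ → ℝ := fun i τ => (H (rep i • τ)).re
  have hψc : ∀ i, Continuous (ψ i) := fun i => by
    refine Complex.continuous_re.comp (hH.continuous.comp ?_)
    exact (mdifferentiable_smul (g := (rep i : GL (Fin 2) ℝ)) (by simp)).continuous
  have hcover : ∀ τ : ℍ, ∃ i : ι, ∃ σ ∈ 𝒟, (H τ).re = ψ i σ := by
    intro τ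
    obtain ⟨g, hg⟩ := ModularGroup.exists_smul_mem_fd τ
    refine ⟨(g : ι), g • τ, hg, ?_⟩
    have hmem : g⁻¹ * Quotient.out (g : ι) ∈ Gamma0 N :=
      QuotientGroup.eq.mp (Quotient.out_eq (g : ι)).symm
    have h1 := hre ⟨_, hmem⟩ (rep (g : ι) • (g • τ))
    simp only [rep, mul_smul, smul_inv_smul, inv_smul_smul] at h1
    exact h1
  obtain ⟨i₀, hi₀⟩ := Finite.exists_max (fun i : ι => (L (rep i)).re)
  by_cases hcase : ∀ τ : ℍ, (H τ).re ≤ (L (rep i₀)).re
  · -- the supremum is the value at a cusp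
    set δ := rep i₀
    have hsl : MDiff (fun τ : ℍ => H (δ • τ)) :=
      hH.comp (mdifferentiable_smul (g := (δ : GL (Fin 2) ℝ)) (by simp))
    obtain ⟨c, hc⟩ := heq ⟨_, conj_T_zpow_mem_Gamma0 N δ⟩
    have hshift : ∀ τ : ℍ, H (δ • ((ModularGroup.T ^ (N : ℤ)) • τ)) = H (δ • τ) + c := fun τ => by
      have h1 := hc (δ • τ)
      simp only [mul_smul, inv_smul_smul] at h1
      linear_combination h1
    have hu : (ModularGroup.T ^ (N : ℤ)) 1 0 = 0 := by simp [ModularGroup.coe_T_zpow, -zpow_natCast]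
    have hc0 : c = 0 := by
      have h1 := ((hL δ).comp (tendsto_smul_atImInfty hu)).sub (hL δ)
      rw [sub_self] at h1
      refine tendsto_nhds_unique (h1.congr fun τ => ?_) tendsto_const_nhds |>.symm
      rw [Function.comp_apply, hshift]
      ring
    have hper : Function.Periodic ((fun τ : ℍ => H (δ • τ)) ∘ ofComplex) ((N : ℝ) : ℂ) := by
      intro x
      by_cases hx : 0 < x.im
      · have hx' : 0 < (x + ((N : ℝ) : ℂ)).im := by simpa using hx
        have hv : ofComplex (x + ((N : ℝ) : ℂ)) = ((N : ℤ) : ℝ) +ᵥ ofComplex x := by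
          apply UpperHalfPlane.ext
          rw [coe_vadd, ofComplex_apply_of_im_pos hx, ofComplex_apply_of_im_pos hx']
          simp [add_comm]
        rw [Function.comp_apply, Function.comp_apply, hv, ← modular_T_zpow_smul, hshift, hc0,
          add_zero]
      · have h1 : x.im ≤ 0 := le_of_not_gt hx
        have h2 : (x + ((N : ℝ) : ℂ)).im ≤ 0 := by simpa using h1
        rw [Function.comp_apply, Function.comp_apply, ofComplex_apply_of_im_nonpos h1,
          ofComplex_apply_of_im_nonpos h2]
    have hconst := const_of_re_le_limit hsl (h := (N : ℝ))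
      (by exact_mod_cast Nat.pos_of_ne_zero (NeZero.ne N)) hper (hL δ)
      (fun τ => hcase (δ • τ)) (δ⁻¹ • z) (δ⁻¹ • w)
    simpa using hconst
  · -- the supremum is attained in `ℍ`
    push Not at hcase
    obtain ⟨τ₀, hτ₀⟩ := hcase
    have hev : ∀ᶠ σ in atImInfty, ∀ i, ψ i σ < (H τ₀).re := by
      rw [eventually_all]
      intro i
      exact ((Complex.continuous_re.tendsto _).comp (hL (rep i))).eventually
        (eventually_lt_nhds (lt_of_le_of_lt (hi₀ i) hτ₀))
    obtain ⟨y, hy⟩ := (atImInfty_mem _).mp hev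
    obtain ⟨i₁, σ₁, hσ₁, he₁⟩ := hcover τ₀
    have hK₁ : σ₁ ∈ ModularGroup.truncatedFundamentalDomain y := by
      refine ⟨hσ₁, le_of_not_gt fun hgt => ?_⟩
      exact (lt_irrefl _) ((hy σ₁ hgt.le i₁).trans_eq' he₁.symm)
    have hmax : ∀ i, ∃ σ ∈ ModularGroup.truncatedFundamentalDomain y,
        ∀ σ' ∈ ModularGroup.truncatedFundamentalDomain y, ψ i σ' ≤ ψ i σ := fun i =>
      (ModularGroup.isCompact_truncatedFundamentalDomain y).exists_isMaxOn ⟨σ₁, hK₁⟩
        (hψc i).continuousOn
    choose σ hσ hσmax using hmax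
    obtain ⟨j, hj⟩ := Finite.exists_max (fun i => ψ i (σ i))
    refine const_of_re_le hH (rep j • σ j) (fun τ => ?_) z w
    obtain ⟨i, s, hs, he⟩ := hcover τ
    rcases le_total s.im y with hsy | hsy
    · calc (H τ).re = ψ i s := he
        _ ≤ ψ i (σ i) := hσmax i s ⟨hs, hsy⟩
        _ ≤ _ := hj i
    · calc (H τ).re = ψ i s := he
        _ ≤ (H τ₀).re := (hy s hsy i).le
        _ = ψ i₁ σ₁ := he₁
        _ ≤ ψ i₁ (σ i₁) := hσmax i₁ σ₁ hK₁
        _ ≤ _ := hj i₁

end FLTA.Periods
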