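import Fermat.Agent.Periods.Injective
import Fermat.Agent.Periods.Duality
import Fermat.Agent.Gamma0.Complex.Main

/-!
# The range of `periodHomPair`, given the dimension of `S₂(Γ₀(N))`
-/

set_option autoImplicit false

noncomputable section

open CongruenceSubgroup ModularCurve ModularCurve.Period
open scoped MatrixGroups

namespace FLTA.Periods

variable (N : ℕ) [NeZero N]

theorem finiteDimensional_parabolicHoms (K : Type*) [Field K] [CharZero K] :
    FiniteDimensional K (parabolicHoms K (Gamma0 N) K) := by
  rw [FLTA.Gamma0.parabolicHoms_eq_homPar0 K (Gamma0 N) K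
    (fun a ha => by simpa [nsmul_eq_mul] using ha)]
  exact FLTA.Gamma0.finite_homPar0 N K

/-- The image of `periodHomPair` is all parabolic homomorphisms as soon as
`dim S₂(Γ₀(N))` is the genus. -/
theorem periodHomPair_range_of_finrank
    (h : (Module.finrank ℂ (CuspForm (Gamma0 N) 2) : ℚ) = genusFormula N) :
    LinearMap.range (periodHomPair N) = parabolicHoms ℂ (Gamma0 N) ℂ := by
  have := finiteDimensional_cf2 N
  have := finiteDimensional_parabolicHoms N ℂ
  refine Submodule.eq_of_le_of_finrank_eq ?_ ?_
  · rintro φ ⟨x, rfl⟩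
    exact periodHomPair_mem_parabolicHoms N x
  · rw [LinearMap.finrank_range_of_inj (periodHomPair_injective' N), Module.finrank_prod,
      FLTA.Gamma0.finrank_parabolicHoms N ℂ]
    have h2 := FLTA.Gamma0.homRank_eq N
    rw [← h] at h2
    have h3 : FLTA.Gamma0.homRank N = 2 * Module.finrank ℂ (CuspForm (Gamma0 N) 2) := by
      exact_mod_cast h2
    omega

end FLTA.Periods
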